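/-
TEAM CFT -> S55, block [GLOB-HNT], package S4 (helper3), part 1: pure group theory.

A subgroup `W` of a commutative group `G` containing all `d`-th powers, such that every subgroup of
finite index containing `W` has index `≤ d`, has itself finite index `≤ d`.
-/
import Mathlib

set_option autoImplicit false

namespace Fermat.Agent.CFT.HNT

namespace SecondIneq

/-- subgroups of finite index separate points modulo a subgroup containing all `d`-th powers. -/
theorem exists_finiteIndex_notMem {G : Type*} [CommGroup G] (W : Subgroup G) (d : ℕ) (hd : 0 < d)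
    (hW : ∀ x : G, x ^ d ∈ W) {a : G} (ha : a ∉ W) :
    ∃ W' : Subgroup G, W ≤ W' ∧ W'.index ≠ 0 ∧ a ∉ W' := by
  have hne : Additive.ofMul (QuotientGroup.mk a : G ⧸ W) ≠ 0 := by
    intro h
    exact ha ((QuotientGroup.eq_one_iff a).1 h)
  obtain ⟨c, hc⟩ := CharacterModule.exists_character_apply_ne_zero_of_ne_zero hne
  let c' : Additive (G ⧸ W) →+ AddCircle (1 : ℚ) := c
  let f : G →* Multiplicative (AddCircle (1 : ℚ)) :=
    { toFun := fun g => Multiplicative.ofAdd (c' (Additive.ofMul (QuotientGroup.mk g : G ⧸ W)))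
      map_one' := by
        have : Additive.ofMul (QuotientGroup.mk (1 : G) : G ⧸ W) = 0 := rfl
        rw [this, map_zero]
        rfl
      map_mul' := by
        intro x y
        have : Additive.ofMul (QuotientGroup.mk (x * y) : G ⧸ W) =
            Additive.ofMul (QuotientGroup.mk x : G ⧸ W) +
              Additive.ofMul (QuotientGroup.mk y : G ⧸ W) := rfl
        rw [this, map_add]
        rfl }
  have hfW : ∀ g ∈ W, f g = 1 := by
    intro g hg
    have h1 : (QuotientGroup.mk g : G ⧸ W) = 1 := (QuotientGroup.eq_one_iff g).2 hg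
    show Multiplicative.ofAdd (c' (Additive.ofMul (QuotientGroup.mk g : G ⧸ W))) = 1
    rw [h1]
    have : Additive.ofMul (1 : G ⧸ W) = 0 := rfl
    rw [this, map_zero]
    rfl
  refine ⟨f.ker, fun g hg => MonoidHom.mem_ker.2 (hfW g hg), ?_, ?_⟩
  · rw [Subgroup.index_ker]
    have hfin : (f.range : Set (Multiplicative (AddCircle (1 : ℚ)))).Finite := by
      refine (AddCircle.finite_torsion (1 : ℚ) hd).subset ?_
      rintro _ ⟨g, rfl⟩
      have h1 : f g ^ d = 1 := by rw [← map_pow]; exact hfW _ (hW g)
      exact h1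
    have : Finite f.range := hfin
    exact Nat.card_pos.ne'
  · intro h
    exact hc (MonoidHom.mem_ker.1 h)

theorem index_le_of_forall {G : Type*} [CommGroup G] (W : Subgroup G) (d : ℕ) (hd : 0 < d)
    (hW : ∀ x : G, x ^ d ∈ W)
    (h : ∀ W' : Subgroup G, W ≤ W' → W'.index ≠ 0 → W'.index ≤ d) :
    W.index ≠ 0 ∧ W.index ≤ d := by
  have key : ∀ k : ℕ, ∀ W' : Subgroup G, W ≤ W' → W'.index ≠ 0 → d - W'.index = k →
      W.index ≠ 0 := by
    intro k
    induction k using Nat.strong_induction_on with
    | _ k ih =>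
      intro W' hle hidx hk
      by_cases hWW : W' ≤ W
      · rwa [le_antisymm hWW hle] at hidx
      · obtain ⟨a, haW', haW⟩ := SetLike.not_le_iff_exists.1 hWW
        obtain ⟨W'', hle'', hidx'', ha''⟩ := exists_finiteIndex_notMem W d hd hW haW
        have hle1 : W ≤ W' ⊓ W'' := le_inf hle hle''
        have hidx1 : (W' ⊓ W'').index ≠ 0 := Subgroup.index_inf_ne_zero hidx hidx''
        have hmul := Subgroup.relIndex_mul_index (inf_le_left : W' ⊓ W'' ≤ W')
        have hrel1 : (W' ⊓ W'').relIndex W' ≠ 1 := by
          intro h1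
          exact ha'' ((Subgroup.relIndex_eq_one.1 h1) haW').2
        have hrel0 : (W' ⊓ W'').relIndex W' ≠ 0 := by
          intro h0
          rw [h0, zero_mul] at hmul
          exact hidx1 hmul.symm
        have h2 : 2 * W'.index ≤ (W' ⊓ W'').index := by
          rw [← hmul]
          exact Nat.mul_le_mul_right _ (by omega)
        have h3 := h _ hle1 hidx1
        have h4 : 0 < W'.index := Nat.pos_of_ne_zero hidx
        exact ih (d - (W' ⊓ W'').index) (by omega) _ hle1 hidx1 rfl
  have h0 : W.index ≠ 0 := key _ ⊤ le_top (by simp) rfl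
  exact ⟨h0, h W le_rfl h0⟩

end SecondIneq

end Fermat.Agent.CFT.HNT
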