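/-
TEAM CFT -> S55, block [GLOB-HNT] (architect helper73): the Hasse norm theorem for cyclic extensions
of prime degree, by counting.  No ideles, no completions, no cohomology.

File 1: definitions (`Near`, `IsApproxNorm`, the subgroups `LN v`, `LNT T`, `T`-units).
-/
import Mathlib

set_option autoImplicit false
set_option linter.unusedSectionVars false

noncomputable section

namespace Fermat.Agent.CFT.HNT

open NumberField IsDedekindDomain

/-- finite places of a number field -/
abbrev Pl (F : Type) [Field F] [NumberField F] : Type := HeightOneSpectrum (𝓞 F)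

section Near

variable {K : Type} [Field K] [NumberField K]

/-- `x ≡ 1 mod v ^ n` (multiplicative congruence). -/
def Near (v : Pl K) (n : ℕ) (x : K) : Prop :=
  v.valuation K (x - 1) ≤ WithZero.exp (-(n : ℤ))

lemma exp_neg_le_one (n : ℕ) : (WithZero.exp (-(n : ℤ)) : WithZero (Multiplicative ℤ)) ≤ 1 := by
  rw [← WithZero.exp_zero, WithZero.exp_le_exp]
  omega

lemma Near.mono {v : Pl K} {m n : ℕ} (h : m ≤ n) {x : K} (hx : Near v n x) : Near v m x :=
  le_trans hx (by rw [WithZero.exp_le_exp]; omega)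

lemma near_one (v : Pl K) (n : ℕ) : Near v n (1 : K) := by
  simp [Near]

lemma Near.mul {v : Pl K} {n : ℕ} {x y : K} (hx : Near v n x) (hy : Near v n y) :
    Near v n (x * y) := by
  unfold Near at *
  have h : x * y - 1 = (x - 1) * (y - 1) + ((x - 1) + (y - 1)) := by ring
  rw [h]
  refine le_trans (Valuation.map_add _ _ _) (max_le ?_ (le_trans (Valuation.map_add _ _ _)
    (max_le hx hy)))
  rw [map_mul]
  calc (v.valuation K) (x - 1) * (v.valuation K) (y - 1)
      ≤ WithZero.exp (-(n : ℤ)) * 1 := mul_le_mul' hx (le_trans hy (exp_neg_le_one n))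
    _ = WithZero.exp (-(n : ℤ)) := mul_one _

lemma Near.valuation_eq_one {v : Pl K} {n : ℕ} (hn : 1 ≤ n) {x : K} (hx : Near v n x) :
    v.valuation K x = 1 := by
  have h1 : v.valuation K (x - 1) < 1 := by
    refine lt_of_le_of_lt hx ?_
    rw [← WithZero.exp_zero, WithZero.exp_lt_exp]
    omega
  have h2 : v.valuation K (x - 1) < v.valuation K (1 : K) := by rwa [map_one]
  have h3 := Valuation.map_add_eq_of_lt_left (v.valuation K) h2
  rw [add_sub_cancel, map_one] at h3
  exact h3

lemma Near.ne_zero {v : Pl K} {n : ℕ} (hn : 1 ≤ n) {x : K} (hx : Near v n x) : x ≠ 0 := by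
  intro h
  have := hx.valuation_eq_one hn
  rw [h, map_zero] at this
  exact zero_ne_one this

lemma Near.inv {v : Pl K} {n : ℕ} (hn : 1 ≤ n) {x : K} (hx : Near v n x) : Near v n x⁻¹ := by
  have h0 := hx.ne_zero hn
  have h1 := hx.valuation_eq_one hn
  unfold Near at *
  have h : x⁻¹ - 1 = -((x - 1) * x⁻¹) := by field_simp; ring
  rw [h, Valuation.map_neg, map_mul, map_inv₀, h1, inv_one, mul_one]
  exact hx

end Near

variable (K M : Type) [Field K] [NumberField K] [Field M] [NumberField M] [Algebra K M]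

/-- `b` is `v`-adically approximable by global norms from `M`
(`⇔ b` is a norm from `M ⊗_K K_v`). -/
def IsApproxNorm (v : Pl K) (b : K) : Prop :=
  ∀ n : ℕ, ∃ β : M, β ≠ 0 ∧ Near v n (b / Algebra.norm K β)

/-- The group of elements of `Kˣ` which are local norms at `v`. -/
def LN (v : Pl K) : Subgroup Kˣ where
  carrier := {b | IsApproxNorm K M v (b : K)}
  one_mem' := fun n => ⟨1, one_ne_zero, by simpa using near_one v n⟩
  mul_mem' := by
    intro a b ha hb n
    obtain ⟨α, hα, h1⟩ := ha n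
    obtain ⟨β, hβ, h2⟩ := hb n
    refine ⟨α * β, mul_ne_zero hα hβ, ?_⟩
    have := h1.mul h2
    rwa [div_mul_div_comm, ← map_mul] at this
  inv_mem' := by
    intro a ha n
    obtain ⟨α, hα, h1⟩ := ha (n + 1)
    refine ⟨α⁻¹, inv_ne_zero hα, ?_⟩
    have := (h1.inv (by omega)).mono (Nat.le_succ n)
    have h2 : ((a⁻¹ : Kˣ) : K) / Algebra.norm K α⁻¹ = ((a : K) / Algebra.norm K α)⁻¹ := by
      rw [Units.val_inv_eq_inv_val, Algebra.norm_inv, inv_div_inv, inv_div]
    rw [h2]
    exact this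

lemma mem_LN {v : Pl K} {b : Kˣ} : b ∈ LN K M v ↔ IsApproxNorm K M v (b : K) := Iff.rfl

/-- local norms at all places of `T` -/
def LNT (T : Set (Pl K)) : Subgroup Kˣ := ⨅ v ∈ T, LN K M v

lemma mem_LNT {T : Set (Pl K)} {b : Kˣ} :
    b ∈ LNT K M T ↔ ∀ v ∈ T, IsApproxNorm K M v (b : K) := by
  simp [LNT, Subgroup.mem_iInf, mem_LN]

/-- The norm `Mˣ → Kˣ`. -/
def normU : Mˣ →* Kˣ := Units.map (Algebra.norm K : M →* K)

@[simp] lemma coe_normU (x : Mˣ) : ((normU K M x : Kˣ) : K) = Algebra.norm K (x : M) := rfl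

lemma normU_mem_LN (v : Pl K) (x : Mˣ) : normU K M x ∈ LN K M v := fun n =>
  ⟨x, x.ne_zero, by
    rw [coe_normU, div_self (by simp)]
    exact near_one v n⟩

variable {K} in
/-- The places of `M` above the places in `T`. -/
def upT (T : Set (Pl K)) : Set (Pl M) := {P | ∃ v ∈ T, P.asIdeal.LiesOver v.asIdeal}

variable {K} in
/-- `v` has only one prime above it in `M`. -/
def NonSplit (v : Pl K) : Prop :=
  ∀ P Q : Pl M, P.asIdeal.LiesOver v.asIdeal → Q.asIdeal.LiesOver v.asIdeal → P = Q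

/-- `T`-units of `K`. -/
abbrev UT (T : Set (Pl K)) : Subgroup Kˣ := T.unit K

/-- `T` is large enough for `M/K`. -/
structure GoodT (T : Set (Pl K)) : Prop where
  fin : T.Finite
  /-- `M/K` is unramified outside `T` -/
  unram : ∀ v : Pl K, v ∉ T → ∀ P : Pl M, P.asIdeal.LiesOver v.asIdeal →
    P.asIdeal.ramificationIdx (𝓞 K) = 1
  /-- `Cl_T(K) = 0` -/
  clK : ∀ I : Ideal (𝓞 K), I ≠ ⊥ → ∃ x : Kˣ, ∀ v : Pl K, v ∉ T →
    v.valuation K (x : K) = WithZero.exp (-((Associates.mk v.asIdeal).count (Associates.mk I).factors : ℤ))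
  /-- `Cl_T(M) = 0` -/
  clM : ∀ I : Ideal (𝓞 M), I ≠ ⊥ → ∃ x : Mˣ, ∀ P : Pl M, P ∉ upT M T →
    P.valuation M (x : M) = WithZero.exp (-((Associates.mk P.asIdeal).count (Associates.mk I).factors : ℤ))

end Fermat.Agent.CFT.HNT

end
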