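/-
TEAM CFT -> S55, block [GLOB-HNT] (architect helper73).  File 2: the packages, statements only.

THEOREM (Hasse norm theorem, cyclic prime degree): `M/K` Galois of prime degree `p`, `K` totally
complex.  If `b ∈ Kˣ` is a local norm at every finite place (`IsApproxNorm`), then `b` is a norm.

PROOF BY COUNTING.  `T` good (`GoodT`), `b ∈ U_T(K)`, `t = #{v ∈ T non split}`,
`V = U_T(M)`, `A = LNT T` (local norms at all `v ∈ T`), `U = U_T(K)`.
  (S1)+(S2)+(S3)  `[U : N V] * p = p ^ t`          (Herbrand quotient from ranks, `H¹ = 1`)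
  (S4)            `[Kˣ : A U] ≤ p`                 (second inequality, from `Ray.Stmt_URay`)
  (S5)            `p ^ t ≤ [Kˣ : A]`               (weak approximation + local input `Stmt_LI`)
  `N V ≤ A ⊓ U` and `[U : A ⊓ U] = [A U : A] ≥ p ^ (t-1) = [U : N V]`, hence `A ⊓ U = N V`.
-/
import Fermat.Agent.CFT.HNT.Defs
import Fermat.Agent.CFT.Ray.Interface

set_option autoImplicit false
set_option linter.unusedSectionVars false

noncomputable section

namespace Fermat.Agent.CFT.HNT

open NumberField IsDedekindDomain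

/-- (S1) `T`-unit theorem (rank form). -/
def Stmt_UnitRank : Prop :=
  ∀ (F : Type) [Field F] [NumberField F] (T : Set (Pl F)), T.Finite →
    Module.Finite ℤ (Additive (UT F T)) ∧
    Module.finrank ℤ (Additive (UT F T)) = Units.rank F + T.ncard

/-- the action of `σ` on `Mˣ` -/
def actU (K M : Type) [Field K] [Field M] [Algebra K M] (σ : M ≃ₐ[K] M) : Mˣ →* Mˣ :=
  Units.map (σ : M →* M)

@[simp] lemma coe_actU (K M : Type) [Field K] [Field M] [Algebra K M] (σ : M ≃ₐ[K] M) (x : Mˣ) :
    ((actU K M σ x : Mˣ) : M) = σ (x : M) := rfl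

/-- number of non split places in `T` -/
def nsCard (K M : Type) [Field K] [NumberField K] [Field M] [NumberField M] [Algebra K M]
    (T : Set (Pl K)) : ℕ := {v ∈ T | NonSplit M v}.ncard

/-- (S2a) the norm of a `T`-unit is a `T`-unit; the Galois group preserves `T`-units; the
invariant `T`-units are the `T`-units of `K`. -/
def Stmt_UnitAction : Prop :=
  ∀ (K M : Type) [Field K] [NumberField K] [Field M] [NumberField M] [Algebra K M] [IsGalois K M]
    (T : Set (Pl K)),
    (∀ x ∈ UT M (upT M T), normU K M x ∈ UT K T) ∧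
    (∀ (σ : M ≃ₐ[K] M), ∀ x ∈ UT M (upT M T), actU K M σ x ∈ UT M (upT M T)) ∧
    (∀ x : Kˣ, Units.map (algebraMap K M : K →* M) x ∈ UT M (upT M T) ↔ x ∈ UT K T)

/-- (S2) Herbrand quotient of the `T`-units: `h⁰ * p = h¹ * p ^ t`. -/
def Stmt_HerbrandT : Prop :=
  ∀ (p : ℕ) (K M : Type) [Field K] [NumberField K] [Field M] [NumberField M] [Algebra K M]
    [IsGalois K M], p.Prime → Module.finrank K M = p → IsTotallyComplex K →
    ∀ τ : M ≃ₐ[K] M, (∀ σ, σ ∈ Subgroup.zpowers τ) → ∀ T : Set (Pl K), T.Finite →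
    let V := UT M (upT M T)
    let h0 := (V.map (normU K M)).relIndex (UT K T)
    let h1 := (V.map (actU K M τ / MonoidHom.id _)).relIndex (V ⊓ (normU K M).ker)
    h0 ≠ 0 ∧ h1 ≠ 0 ∧ h0 * p = h1 * p ^ nsCard K M T

/-- (S3) `H¹(G, U_T(M)) = 1` for good `T`. -/
def Stmt_H1T : Prop :=
  ∀ (K M : Type) [Field K] [NumberField K] [Field M] [NumberField M] [Algebra K M]
    [IsGalois K M] (τ : M ≃ₐ[K] M), (∀ σ, σ ∈ Subgroup.zpowers τ) →
    ∀ T : Set (Pl K), GoodT K M T →
    ∀ u ∈ UT M (upT M T), normU K M u = 1 → ∃ ε ∈ UT M (upT M T), u = actU K M τ ε / ε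

/-- (S6) the group of local norms is open. -/
def Stmt_Open : Prop :=
  ∀ (K M : Type) [Field K] [NumberField K] [Field M] [NumberField M] [Algebra K M] (v : Pl K),
    ∃ n : ℕ, ∀ x : K, Near v n x → IsApproxNorm K M v x

/-- (S7) weak approximation (multiplicative form). -/
def Stmt_WeakApprox : Prop :=
  ∀ (K : Type) [Field K] [NumberField K] (T : Finset (Pl K)) (x : Pl K → K),
    (∀ v ∈ T, x v ≠ 0) → ∀ n : ℕ, ∃ y : K, y ≠ 0 ∧ ∀ v ∈ T, Near v n (y / x v)

/-- (S4) the second inequality. -/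
def Stmt_SecondIneq : Prop :=
  ∀ (K M : Type) [Field K] [NumberField K] [Field M] [NumberField M] [Algebra K M]
    (T : Set (Pl K)), GoodT K M T →
    (LNT K M T ⊔ UT K T).index ≠ 0 ∧ (LNT K M T ⊔ UT K T).index ≤ Module.finrank K M

/-- The only local input: at a non split place not every element is a local norm. -/
def Stmt_LI (K M : Type) [Field K] [NumberField K] [Field M] [NumberField M] [Algebra K M] : Prop :=
  ∀ v : Pl K, NonSplit M v → ∃ b : Kˣ, b ∉ LN K M v

/-- (S5) lower bound for the product of the local norm indices. -/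
def Stmt_LocalCount : Prop :=
  ∀ (p : ℕ) (K M : Type) [Field K] [NumberField K] [Field M] [NumberField M] [Algebra K M],
    p.Prime → Module.finrank K M = p → Stmt_LI K M → ∀ T : Set (Pl K), T.Finite →
    (LNT K M T).index ≠ 0 → p ^ nsCard K M T ≤ (LNT K M T).index

/-- (S8) good sets of places exist. -/
def Stmt_ExistsGoodT : Prop :=
  ∀ (K M : Type) [Field K] [NumberField K] [Field M] [NumberField M] [Algebra K M]
    (T₀ : Set (Pl K)), T₀.Finite → ∃ T : Set (Pl K), T₀ ⊆ T ∧ GoodT K M T

/-- (S9) every element of `Kˣ` is a `T`-unit for some finite `T`. -/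
def Stmt_Supp : Prop :=
  ∀ (K : Type) [Field K] [NumberField K] (b : Kˣ), {v : Pl K | v.valuation K (b : K) ≠ 1}.Finite

/-- **The Hasse norm theorem** for cyclic extensions of prime degree. -/
def Stmt_HNT : Prop :=
  ∀ (p : ℕ) (K M : Type) [Field K] [NumberField K] [Field M] [NumberField M] [Algebra K M]
    [IsGalois K M], p.Prime → Module.finrank K M = p → IsTotallyComplex K → Stmt_LI K M →
    ∀ b : K, b ≠ 0 → (∀ v : Pl K, IsApproxNorm K M v b) → ∃ β : M, Algebra.norm K β = b

end Fermat.Agent.CFT.HNT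

end
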