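import Fermat.Agent.CFT.HNT.Interface

/-!
# HNT-S7 : weak approximation (multiplicative form) and finiteness of the support
-/

set_option autoImplicit false

noncomputable section

namespace Fermat.Agent.CFT.HNT

open NumberField IsDedekindDomain

namespace WA

variable {K : Type} [Field K] [NumberField K]

/-- key local estimate. -/
lemma near_of_mem (v : Pl K) (n : ℕ) (a a' s : 𝓞 K) (ha' : a' ≠ 0) (hs : s ≠ 0) (k : ℕ)
    (hk : WithZero.exp (-(k : ℤ)) ≤ v.intValuation a') (h : a - a' ∈ v.asIdeal ^ (n + k)) :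
    Near v n (((a : K) / (s : K)) / ((a' : K) / (s : K))) := by
  have ha'K : (a' : K) ≠ 0 := by
    simpa using ha'
  have hsK : (s : K) ≠ 0 := by
    simpa using hs
  have h1 : ((a : K) / (s : K)) / ((a' : K) / (s : K)) - 1 = ((a - a' : 𝓞 K) : K) / (a' : K) := by
    push_cast
    field_simp
  unfold Near
  rw [h1, map_div₀]
  have h2 : v.valuation K ((a - a' : 𝓞 K) : K) ≤ WithZero.exp (-((n + k : ℕ) : ℤ)) := by
    rw [HeightOneSpectrum.valuation_of_algebraMap]
    exact (v.intValuation_le_pow_iff_mem _ _).mpr h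
  have h3 : WithZero.exp (-(k : ℤ)) ≤ v.valuation K (a' : K) := by
    rw [HeightOneSpectrum.valuation_of_algebraMap]
    exact hk
  have h4 : v.valuation K (a' : K) ≠ 0 := by
    rw [Valuation.ne_zero_iff]
    exact ha'K
  rw [div_le_iff₀ (zero_lt_iff.mpr h4)]
  calc v.valuation K ((a - a' : 𝓞 K) : K) ≤ WithZero.exp (-((n + k : ℕ) : ℤ)) := h2
    _ = WithZero.exp (-(n : ℤ)) * WithZero.exp (-(k : ℤ)) := by
        rw [← WithZero.exp_add]
        congr 1
        push_cast
        ring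
    _ ≤ WithZero.exp (-(n : ℤ)) * v.valuation K (a' : K) := mul_le_mul_right h3 _

lemma exists_exp_le (v : Pl K) (a' : 𝓞 K) (ha' : a' ≠ 0) :
    ∃ k : ℕ, WithZero.exp (-(k : ℤ)) ≤ v.intValuation a' := by
  rw [v.intValuation_if_neg ha']
  exact ⟨_, le_rfl⟩

end WA

theorem weakApprox : Stmt_WeakApprox := by
  intro K _ _ T x hx n
  classical
  by_cases hT : T.Nonempty
  swap
  · refine ⟨1, one_ne_zero, fun v hv => ?_⟩
    exact absurd ⟨v, hv⟩ hT
  obtain ⟨⟨s, hs⟩, hsx⟩ := IsLocalization.exist_integer_multiples (nonZeroDivisors (𝓞 K)) T x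
  have hs0 : s ≠ 0 := nonZeroDivisors.ne_zero hs
  have hsK : (s : K) ≠ 0 := by simpa using hs0
  choose! a' ha' using hsx
  have hxa : ∀ v ∈ T, x v = (a' v : K) / (s : K) := by
    intro v hv
    have := ha' v hv
    rw [Algebra.smul_def] at this
    rw [eq_div_iff hsK, mul_comm]
    exact this.symm
  have ha'0 : ∀ v ∈ T, a' v ≠ 0 := by
    intro v hv h
    have := hxa v hv
    rw [h] at this
    exact hx v hv (by simpa using this)
  have hk : ∀ v : Pl K, ∃ k : ℕ, v ∈ T → WithZero.exp (-(k : ℤ)) ≤ v.intValuation (a' v) := by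
    intro v
    by_cases hv : v ∈ T
    · obtain ⟨k, hk⟩ := WA.exists_exp_le v (a' v) (ha'0 v hv)
      exact ⟨k, fun _ => hk⟩
    · exact ⟨0, fun h => absurd h hv⟩
  choose k hk using hk
  obtain ⟨a, ha⟩ := IsDedekindDomain.exists_forall_sub_mem_ideal (s := T)
    (fun v : Pl K => v.asIdeal) (fun v => (n + 1) + k v) (fun v _ => v.prime)
    (fun v _ w _ hvw h => hvw (HeightOneSpectrum.ext h)) (fun v => a' v.1)
  have hnear : ∀ v ∈ T, Near v (n + 1) (((a : K) / (s : K)) / x v) := by
    intro v hv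
    rw [hxa v hv]
    exact WA.near_of_mem v (n + 1) a (a' v) s (ha'0 v hv) hs0 (k v) (hk v hv) (ha v hv)
  refine ⟨(a : K) / (s : K), ?_, fun v hv => (hnear v hv).mono (Nat.le_succ n)⟩
  obtain ⟨v, hv⟩ := hT
  intro h
  have := (hnear v hv).ne_zero (by omega)
  rw [h, zero_div] at this
  exact this rfl

theorem supp : Stmt_Supp := by
  intro K _ _ b
  refine ((HeightOneSpectrum.Support.finite (𝓞 K) (b : K)).union
    (HeightOneSpectrum.Support.finite (𝓞 K) ((b : K)⁻¹))).subset ?_
  intro v hv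
  rcases lt_or_gt_of_ne hv with h | h
  · right
    change 1 < v.valuation K ((b : K)⁻¹)
    rw [map_inv₀]
    have h0 : v.valuation K (b : K) ≠ 0 := by
      rw [Valuation.ne_zero_iff]; exact b.ne_zero
    exact (one_lt_inv₀ (zero_lt_iff.mpr h0)).mpr h
  · left
    exact h

end Fermat.Agent.CFT.HNT

end
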