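/-
TEAM CFT -> S55, block [GLOB-HNT] (architect helper73).  File 3: the counting argument.
-/
import Fermat.Agent.CFT.HNT.Interface

set_option autoImplicit false
set_option linter.unusedSectionVars false

namespace Fermat.Agent.CFT.HNT

open NumberField IsDedekindDomain

/-- pure group theory: the counting step. -/
theorem count_step {G : Type*} [CommGroup G] (A U NV : Subgroup G) (p t : ℕ) (hp : p.Prime)
    (hNA : NV ≤ A) (hNU : NV ≤ U)
    (h0 : NV.relIndex U * p = p ^ t)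
    (h4 : (A ⊔ U).index ≠ 0) (h4' : (A ⊔ U).index ≤ p)
    (h5 : A.index ≠ 0 → p ^ t ≤ A.index) : A ⊓ U ≤ NV := by
  have hp0 : 0 < p := hp.pos
  -- `[U : NV] ≠ 0`
  have hr0 : NV.relIndex U ≠ 0 := by
    intro h
    rw [h, zero_mul] at h0
    exact (pow_ne_zero t hp.ne_zero) h0.symm
  -- `[U : NV] = [U : A ⊓ U] * [A ⊓ U : NV]`
  have hle : NV ≤ A ⊓ U := le_inf hNA hNU
  have hmul : NV.relIndex (A ⊓ U) * (A ⊓ U).relIndex U = NV.relIndex U :=
    Subgroup.relIndex_mul_relIndex NV (A ⊓ U) U hle inf_le_right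
  have ha : (A ⊓ U).relIndex U = A.relIndex U := Subgroup.inf_relIndex_right A U
  have hb : A.relIndex (A ⊔ U) = A.relIndex U := by
    exact Subgroup.relIndex_sup_left U A
  have hidx : A.relIndex (A ⊔ U) * (A ⊔ U).index = A.index :=
    Subgroup.relIndex_mul_index le_sup_left
  have hAU0 : A.relIndex U ≠ 0 := by
    intro h
    rw [ha, h, mul_zero] at hmul
    exact hr0 hmul.symm
  have hA0 : A.index ≠ 0 := by
    rw [← hidx, hb]
    exact mul_ne_zero hAU0 h4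
  have h6 := h5 hA0
  rw [← hidx, hb] at h6
  -- `p ^ t ≤ [U : A ⊓ U] * p`
  have h7 : p ^ t ≤ A.relIndex U * p := le_trans h6 (Nat.mul_le_mul_left _ h4')
  rw [← h0, ← hmul, ha] at h7
  have h8 : NV.relIndex (A ⊓ U) * A.relIndex U ≤ A.relIndex U := Nat.le_of_mul_le_mul_right h7 hp0
  have h9 : NV.relIndex (A ⊓ U) ≤ 1 := by
    by_contra hcon
    rw [not_le] at hcon
    have : 2 * A.relIndex U ≤ NV.relIndex (A ⊓ U) * A.relIndex U := Nat.mul_le_mul_right _ hcon
    have h10 : 0 < A.relIndex U := Nat.pos_of_ne_zero hAU0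
    omega
  have h10 : NV.relIndex (A ⊓ U) ≠ 0 := by
    intro h
    rw [h, zero_mul] at hmul
    exact hr0 hmul.symm
  have h11 : NV.relIndex (A ⊓ U) = 1 := by omega
  exact Subgroup.relIndex_eq_one.1 h11

theorem hnt (h2a : Stmt_UnitAction) (h2 : Stmt_HerbrandT) (h3 : Stmt_H1T)
    (h4 : Stmt_SecondIneq) (h5 : Stmt_LocalCount) (h8 : Stmt_ExistsGoodT) (h9 : Stmt_Supp) :
    Stmt_HNT := by
  intro p K M _ _ _ _ _ _ hp hdeg hTC hLI b hb hloc
  -- a generator of the Galois group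
  have hcard : Nat.card (M ≃ₐ[K] M) = p := by
    rw [IsGalois.card_aut_eq_finrank, hdeg]
  have : Fact p.Prime := ⟨hp⟩
  have : IsCyclic (M ≃ₐ[K] M) := isCyclic_of_prime_card hcard
  obtain ⟨τ, hτ⟩ := IsCyclic.exists_generator (α := M ≃ₐ[K] M)
  set bU : Kˣ := Units.mk0 b hb with hbU
  obtain ⟨T, hT0, hT⟩ := h8 K M {v : Pl K | v.valuation K (bU : K) ≠ 1} (h9 K bU)
  obtain ⟨hN, -, -⟩ := h2a K M T
  obtain ⟨h00, h10, hH⟩ := h2 p K M hp hdeg hTC τ hτ T hT.fin
  have hH1 : ((UT M (upT M T)).map (actU K M τ / MonoidHom.id _)).relIndex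
      (UT M (upT M T) ⊓ (normU K M).ker) = 1 := by
    rw [Subgroup.relIndex_eq_one]
    rintro u ⟨hu1, hu2⟩
    obtain ⟨ε, hε, rfl⟩ := h3 K M τ hτ T hT u hu1 hu2
    exact ⟨ε, hε, rfl⟩
  rw [hH1, one_mul] at hH
  obtain ⟨h41, h42⟩ := h4 K M T hT
  rw [hdeg] at h42
  have key := count_step (LNT K M T) (UT K T) ((UT M (upT M T)).map (normU K M)) p
    (nsCard K M T) hp
    (by
      rintro _ ⟨x, -, rfl⟩
      rw [mem_LNT]
      exact fun v _ => normU_mem_LN K M v x)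
    (by
      rintro _ ⟨x, hx, rfl⟩
      exact hN x hx)
    hH h41 h42 (h5 p K M hp hdeg hLI T hT.fin)
  have hbmem : bU ∈ LNT K M T ⊓ UT K T := by
    refine Subgroup.mem_inf.2 ⟨?_, ?_⟩
    · rw [mem_LNT]
      exact fun v _ => hloc v
    · intro v hv
      by_contra hcon
      exact hv (hT0 hcon)
  obtain ⟨β, -, hβ⟩ := key hbmem
  exact ⟨β, by
    have := congrArg (fun u : Kˣ => (u : K)) hβ
    simpa [hbU] using this⟩

end Fermat.Agent.CFT.HNT
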