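/-
TEAM CFT -> S55, block [GLOB-HNT], task HNT-S8 (helper75): good sets of places exist.

`T := T₀ ∪ (places below the different) ∪ S_K ∪ (places below S_M)`, where `S_F` is the (finite) set
of primes dividing one of the chosen integral representatives of the ideal classes of `F`.
-/
import Fermat.Agent.CFT.HNT.Interface

set_option autoImplicit false
set_option linter.unusedSectionVars false

noncomputable section

namespace Fermat.Agent.CFT.HNT

open NumberField IsDedekindDomain

namespace ExGood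

/-- the set of primes dividing a nonzero ideal is finite -/
lemma finite_dvd {F : Type} [Field F] [NumberField F] (J : Ideal (𝓞 F)) (hJ : J ≠ ⊥) :
    {v : Pl F | v.asIdeal ∣ J}.Finite :=
  Ideal.finite_factors hJ

/-- class-number statement: there is a finite set `S` of places such that every nonzero ideal
is principal away from `S`. -/
lemma exists_cl (F : Type) [Field F] [NumberField F] :
    ∃ S : Set (Pl F), S.Finite ∧ ∀ I : Ideal (𝓞 F), I ≠ ⊥ → ∃ x : Fˣ, ∀ v : Pl F, v ∉ S →
      v.valuation F (x : F) =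
        WithZero.exp (-((Associates.mk v.asIdeal).count (Associates.mk I).factors : ℤ)) := by
  classical
  choose J hJ using (ClassGroup.mk0_surjective (R := 𝓞 F))
  refine ⟨⋃ c : ClassGroup (𝓞 F), {v : Pl F | v.asIdeal ∣ (J c : Ideal (𝓞 F))},
    Set.finite_iUnion fun c => finite_dvd _ (nonZeroDivisors.coe_ne_zero (J c)), ?_⟩
  intro I hI
  set I0 : nonZeroDivisors (Ideal (𝓞 F)) := ⟨I, mem_nonZeroDivisors_iff_ne_zero.mpr hI⟩ with hI0
  have h1 : ClassGroup.mk0 I0 = ClassGroup.mk0 (J (ClassGroup.mk0 I0)) := (hJ _).symm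
  set J0 := J (ClassGroup.mk0 I0) with hJ0
  obtain ⟨x, y, hx, hy, hxy⟩ := (ClassGroup.mk0_eq_mk0_iff (R := 𝓞 F)).mp h1
  have hxF : (algebraMap (𝓞 F) F x) ≠ 0 := by
    simpa using hx
  have hyF : (algebraMap (𝓞 F) F y) ≠ 0 := by
    simpa using hy
  refine ⟨Units.mk0 (algebraMap (𝓞 F) F y / algebraMap (𝓞 F) F x) (div_ne_zero hyF hxF), ?_⟩
  intro v hv
  have hvJ : ¬ v.asIdeal ∣ (J0 : Ideal (𝓞 F)) := by
    intro h
    exact hv (Set.mem_iUnion.mpr ⟨_, h⟩)
  have hJne : (J0 : Ideal (𝓞 F)) ≠ 0 := nonZeroDivisors.coe_ne_zero J0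
  have hcJ : (Associates.mk v.asIdeal).count (Associates.mk (J0 : Ideal (𝓞 F))).factors = 0 := by
    by_contra h
    exact hvJ ((Associates.count_ne_zero_iff_dvd hJne v.irreducible).mp h)
  have hsx : Ideal.span {x} ≠ (0 : Ideal (𝓞 F)) := by
    simpa using hx
  have hsy : Ideal.span {y} ≠ (0 : Ideal (𝓞 F)) := by
    simpa using hy
  have hcount : (Associates.mk v.asIdeal).count (Associates.mk (Ideal.span {x})).factors
      + (Associates.mk v.asIdeal).count (Associates.mk I).factors
      = (Associates.mk v.asIdeal).count (Associates.mk (Ideal.span {y})).factors := by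
    have e1 := Associates.count_mul (a := Associates.mk (Ideal.span {x}))
      (b := Associates.mk I) (Associates.mk_ne_zero.mpr hsx) (Associates.mk_ne_zero.mpr hI)
      v.associates_irreducible
    have e2 := Associates.count_mul (a := Associates.mk (Ideal.span {y}))
      (b := Associates.mk (J0 : Ideal (𝓞 F))) (Associates.mk_ne_zero.mpr hsy)
      (Associates.mk_ne_zero.mpr hJne) v.associates_irreducible
    rw [Associates.mk_mul_mk] at e1 e2
    have hxy' : Ideal.span {x} * I = Ideal.span {y} * (J0 : Ideal (𝓞 F)) := hxy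
    rw [hxy'] at e1
    rw [← e1, e2, hcJ, add_zero]
  rw [Units.val_mk0, map_div₀, HeightOneSpectrum.valuation_of_algebraMap,
    HeightOneSpectrum.valuation_of_algebraMap, v.intValuation_if_neg hx, v.intValuation_if_neg hy,
    ← WithZero.exp_sub, ← hcount]
  congr 1
  push_cast
  ring

variable (K M : Type) [Field K] [NumberField K] [Field M] [NumberField M] [Algebra K M]

/-- the places of `K` below a set of places of `M` -/
def down (S : Set (Pl M)) : Set (Pl K) := {v | ∃ P ∈ S, P.asIdeal.LiesOver v.asIdeal}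

lemma down_finite {S : Set (Pl M)} (hS : S.Finite) : (down K M S).Finite := by
  have h : down K M S = ⋃ P ∈ S, {v : Pl K | P.asIdeal.LiesOver v.asIdeal} := by
    ext v
    simp [down]
  rw [h]
  refine hS.biUnion fun P _ => Set.Subsingleton.finite ?_
  intro v hv w hw
  have h1 : v.asIdeal = Ideal.under (𝓞 K) P.asIdeal := hv.over
  have h2 : w.asIdeal = Ideal.under (𝓞 K) P.asIdeal := hw.over
  exact HeightOneSpectrum.ext (h1.trans h2.symm)

/-- the place of `K` below a place of `M` -/
def underPl (P : Pl M) : Pl K where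
  asIdeal := Ideal.under (𝓞 K) P.asIdeal
  isPrime := Ideal.IsPrime.under (𝓞 K) P.asIdeal
  ne_bot := Ideal.under_ne_bot (𝓞 K) P.ne_bot

lemma liesOver_underPl (P : Pl M) : P.asIdeal.LiesOver (underPl K M P).asIdeal := ⟨rfl⟩

lemma mem_upT_down {S : Set (Pl M)} {P : Pl M} (hP : P ∈ S) {T : Set (Pl K)}
    (hT : down K M S ⊆ T) : P ∈ upT M T :=
  ⟨underPl K M P, hT ⟨P, hP, liesOver_underPl K M P⟩, liesOver_underPl K M P⟩

end ExGood

open ExGood in
/-- (S8) good sets of places exist. -/
theorem existsGoodT : Stmt_ExistsGoodT := by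
  intro K M _ _ _ _ _ T₀ hT₀
  obtain ⟨SK, hSKf, hSK⟩ := exists_cl K
  obtain ⟨SM, hSMf, hSM⟩ := exists_cl M
  set R : Set (Pl M) := {P : Pl M | P.asIdeal ∣ differentIdeal (𝓞 K) (𝓞 M)} with hR
  have hRf : R.Finite := finite_dvd _ differentIdeal_ne_bot
  refine ⟨T₀ ∪ down K M R ∪ SK ∪ down K M SM, ?_, ?_, ?_, ?_, ?_⟩
  · intro v hv
    exact Or.inl (Or.inl (Or.inl hv))
  · exact ((hT₀.union (down_finite K M hRf)).union hSKf).union (down_finite K M hSMf)
  · intro v hv P hP
    have hPR : ¬ P.asIdeal ∣ differentIdeal (𝓞 K) (𝓞 M) := by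
      intro h
      exact hv (Or.inl (Or.inl (Or.inr ⟨P, h, hP⟩)))
    have : Algebra.IsUnramifiedAt (𝓞 K) P.asIdeal := not_dvd_differentIdeal_iff.mp hPR
    exact Ideal.ramificationIdx_eq_one P.asIdeal (𝓞 K)
  · intro I hI
    obtain ⟨x, hx⟩ := hSK I hI
    exact ⟨x, fun v hv => hx v fun h => hv (Or.inl (Or.inr h))⟩
  · intro I hI
    obtain ⟨x, hx⟩ := hSM I hI
    refine ⟨x, fun P hP => hx P fun h => hP ?_⟩
    exact mem_upT_down K M h (fun v hv => Or.inr hv)

end Fermat.Agent.CFT.HNT

end
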