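/-
TEAM CFT -> S55, block [GLOB-HNT], package (S3): `H¹(G, U_T(M)) = 1` for good `T`.
-/
import Fermat.Agent.CFT.HNT.Interface

set_option autoImplicit false
set_option linter.unusedSectionVars false

namespace Fermat.Agent.CFT.HNT

open NumberField IsDedekindDomain

namespace H1T

variable {K M : Type} [Field K] [NumberField K] [Field M] [NumberField M] [Algebra K M]

lemma mem_UT {F : Type} [Field F] [NumberField F] {T : Set (Pl F)} {x : Fˣ} :
    x ∈ UT F T ↔ ∀ v ∉ T, v.valuation F (x : F) = 1 := Iff.rfl

/-- valuations at an unramified prime -/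
lemma val_algebraMap (v : Pl K) (P : Pl M) (h : P.asIdeal.LiesOver v.asIdeal)
    (he : P.asIdeal.ramificationIdx (𝓞 K) = 1) (x : K) :
    P.valuation M (algebraMap K M x) = v.valuation K x := by
  have := h
  have := HeightOneSpectrum.valuation_liesOver M v P x
  rw [Ideal.ramificationIdx'_eq_ramificationIdx _ _ v.ne_bot, he, pow_one] at this
  exact this.symm

open Classical in
lemma count_eq (v w : Pl K) :
    (Associates.mk v.asIdeal).count (Associates.mk w.asIdeal).factors = if v = w then 1 else 0 := by
  split_ifs with h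
  · subst h
    exact Associates.count_self v.associates_irreducible
  · refine Associates.count_eq_zero_of_ne v.associates_irreducible w.associates_irreducible ?_
    intro h2
    rw [Associates.mk_eq_mk_iff_associated, associated_iff_eq] at h2
    exact h (HeightOneSpectrum.ext h2)

lemma finite_supp (x : Kˣ) : {w : Pl K | w.valuation K (x : K) ≠ 1}.Finite := by
  refine ((HeightOneSpectrum.Support.finite (𝓞 K) (x : K)).union
    (HeightOneSpectrum.Support.finite (𝓞 K) ((x : K)⁻¹))).subset ?_
  intro w hw
  simp only [Set.mem_ofPred_eq] at hw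
  rcases lt_or_gt_of_ne hw with h | h
  · right
    show 1 < w.valuation K ((x : K)⁻¹)
    rw [map_inv₀]
    exact (one_lt_inv₀ (by simp [zero_lt_iff])).2 h
  · left
    exact h

/-- an element of `Kˣ` with prescribed valuations outside `T` -/
lemma exists_prescribed {T : Set (Pl K)} (hT : GoodT K M T) (e : Pl K → ℤ)
    (he : {w : Pl K | e w ≠ 0}.Finite) :
    ∃ c : Kˣ, ∀ v ∉ T, v.valuation K (c : K) = WithZero.exp (e v) := by
  classical
  choose π hπ using fun w : Pl K => hT.clK w.asIdeal w.ne_bot
  refine ⟨∏ w ∈ he.toFinset, π w ^ (-e w), fun v hv => ?_⟩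
  rw [Units.coe_prod, map_prod]
  have hterm : ∀ w, v.valuation K ((π w ^ (-e w) : Kˣ) : K)
      = if v = w then WithZero.exp (e v) else 1 := by
    intro w
    rw [Units.val_zpow_eq_zpow_val, map_zpow₀, hπ w v hv, count_eq]
    split_ifs with h
    · subst h
      rw [← WithZero.exp_zsmul]
      simp
    · simp
  simp only [hterm]
  rw [Finset.prod_ite_eq]
  split_ifs with h
  · rfl
  · have : e v = 0 := by
      by_contra h0
      exact h (he.mem_toFinset.2 h0)
    rw [this, WithZero.exp_zero]

end H1T

open H1T in
theorem h1T (h2 : Stmt_UnitAction) : Stmt_H1T := by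
  classical
  intro K M _ _ _ _ _ _ τ hτ T hT u hu hN
  obtain ⟨-, hAct, -⟩ := h2 K M T
  set V := UT M (upT M T) with hV
  -- Hilbert 90
  have : IsCyclic (M ≃ₐ[K] M) := ⟨τ, hτ⟩
  have hN' : Algebra.norm K (u : M) = 1 := congrArg Units.val hN
  obtain ⟨y, hy⟩ := groupCohomology.exists_div_of_norm_eq_one hτ hN'
  set β : Mˣ := y⁻¹ with hβ
  have hu' : u = actU K M τ β / β := by
    ext
    rw [Units.val_div_eq_div_val, coe_actU, hβ, Units.val_inv_eq_inv_val, map_inv₀, ← hy]
    field_simp
  -- all conjugates of `β` differ from `β` by an element of `V`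
  let H : Subgroup (M ≃ₐ[K] M) :=
    { carrier := {σ | actU K M σ β / β ∈ V}
      one_mem' := by
        have : actU K M 1 β = β := by ext; simp
        simp only [Set.mem_ofPred_eq, this, div_self']
        exact one_mem V
      mul_mem' := by
        intro σ σ' h h'
        have : actU K M (σ * σ') β / β = actU K M σ (actU K M σ' β / β) * (actU K M σ β / β) := by
          ext
          simp only [Units.val_div_eq_div_val, Units.val_mul, coe_actU, AlgEquiv.mul_apply, map_div₀]
          have h1 : (σ (β : M)) ≠ 0 := by simp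
          field_simp
        simp only [Set.mem_ofPred_eq, this]
        exact mul_mem (hAct σ _ h') h
      inv_mem' := by
        intro σ h
        have : actU K M σ⁻¹ β / β = (actU K M σ⁻¹ (actU K M σ β / β))⁻¹ := by
          ext
          simp only [Units.val_div_eq_div_val, Units.val_inv_eq_inv_val, coe_actU, map_div₀,
            AlgEquiv.aut_inv, AlgEquiv.symm_apply_apply, inv_div]
        simp only [Set.mem_ofPred_eq, this]
        exact inv_mem (hAct σ⁻¹ _ h) }
  have hτH : τ ∈ H := by
    show actU K M τ β / β ∈ V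
    rw [← hu']; exact hu
  have hall : ∀ σ : M ≃ₐ[K] M, actU K M σ β / β ∈ V := fun σ =>
    (Subgroup.zpowers_le.2 hτH) (hτ σ)
  have hval : ∀ (σ : M ≃ₐ[K] M) (P : Pl M), P ∉ upT M T →
      P.valuation M (σ (β : M)) = P.valuation M (β : M) := by
    intro σ P hP
    have h1 := (mem_UT.1 (hall σ)) P hP
    rw [Units.val_div_eq_div_val, coe_actU, map_div₀, div_eq_one_iff_eq (by simp)] at h1
    exact h1
  -- the norm
  set c₀ : Kˣ := normU K M β with hc₀
  set n : ℕ := Fintype.card (M ≃ₐ[K] M) with hn
  have hn0 : 0 < n := Fintype.card_pos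
  have hnorm : ∀ P : Pl M, P ∉ upT M T →
      P.valuation M (algebraMap K M (c₀ : K)) = P.valuation M (β : M) ^ n := by
    intro P hP
    rw [hc₀, coe_normU, Algebra.norm_eq_prod_automorphisms, map_prod,
      Finset.prod_congr rfl (fun σ _ => hval σ P hP), Finset.prod_const, Finset.card_univ]
  -- the exponents
  let e : Pl K → ℤ := fun w => WithZero.log (w.valuation K (c₀ : K)) / n
  have hefin : {w : Pl K | e w ≠ 0}.Finite := by
    refine (finite_supp c₀).subset fun w hw => ?_
    simp only [Set.mem_ofPred_eq] at hw ⊢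
    intro h1
    apply hw
    simp [e, h1]
  obtain ⟨c, hc⟩ := exists_prescribed hT e hefin
  set cM : Mˣ := Units.map (algebraMap K M : K →* M) c with hcM
  refine ⟨β / cM, ?_, ?_⟩
  · -- `β / c` is a `T`-unit
    rw [hV, mem_UT]
    intro P hP
    set v : Pl K := HeightOneSpectrum.under (𝓞 K) P with hv
    have hlies : P.asIdeal.LiesOver v.asIdeal := ⟨rfl⟩
    have hvT : v ∉ T := fun h => hP ⟨v, h, hlies⟩
    have hun := hT.unram v hvT P hlies
    have h1 := hnorm P hP
    rw [val_algebraMap v P hlies hun] at h1
    have hβ0 : P.valuation M (β : M) ≠ 0 := by simp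
    have hc0 : v.valuation K (c₀ : K) ≠ 0 := by simp
    have h2 : WithZero.log (v.valuation K (c₀ : K)) = n * WithZero.log (P.valuation M (β : M)) := by
      rw [h1, WithZero.log_pow]
      simp
    have h3 : e v = WithZero.log (P.valuation M (β : M)) := by
      show WithZero.log (v.valuation K (c₀ : K)) / n = _
      rw [h2]
      exact Int.mul_ediv_cancel_left _ (by exact_mod_cast hn0.ne')
    have h4 : P.valuation M (cM : M) = P.valuation M (β : M) := by
      have : (cM : M) = algebraMap K M (c : K) := rfl
      rw [this, val_algebraMap v P hlies hun, hc v hvT, h3, WithZero.exp_log hβ0]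
    rw [Units.val_div_eq_div_val, map_div₀, h4, div_self hβ0]
  · -- the coboundary is unchanged
    rw [hu']
    have : actU K M τ cM = cM := by
      ext
      simp [hcM]
    rw [map_div, this]
    ext
    simp only [Units.val_div_eq_div_val]
    have h1 : (cM : M) ≠ 0 := cM.ne_zero
    have h2 : (β : M) ≠ 0 := β.ne_zero
    field_simp

end Fermat.Agent.CFT.HNT
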