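import Fermat.Agent.CFT.HNT.Interface
import Fermat.Agent.S14.Herbrand
import Fermat.Agent.S14.LoUnits

/-! # CFT / HNT, package S2: Herbrand quotient of the `T`-units from ranks (helper29) -/

set_option autoImplicit false
set_option linter.unusedSectionVars false

noncomputable section

namespace Fermat.Agent.CFT.HNT

open NumberField IsDedekindDomain


section Count

variable (K M : Type) [Field K] [NumberField K] [Field M] [NumberField M] [Algebra K M]

/-- the places of `M` above `v` -/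
def HerbrandT_fib (v : Pl K) : Set (Pl M) := {P | P.asIdeal.LiesOver v.asIdeal}

theorem HerbrandT_fib_image (v : Pl K) :
    (fun P : Pl M => P.asIdeal) '' HerbrandT_fib K M v = Ideal.primesOver v.asIdeal (𝓞 M) := by
  ext Q
  constructor
  · rintro ⟨P, hP, rfl⟩
    exact ⟨P.isPrime, hP⟩
  · rintro ⟨hQ, hQv⟩
    exact ⟨⟨Q, hQ, Ideal.ne_bot_of_liesOver_of_ne_bot v.ne_bot Q⟩, hQv, rfl⟩

theorem HerbrandT_fib_ncard (v : Pl K) :
    (HerbrandT_fib K M v).ncard = (Ideal.primesOver v.asIdeal (𝓞 M)).ncard := by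
  rw [← HerbrandT_fib_image, Set.ncard_image_of_injective]
  intro P Q h
  exact HeightOneSpectrum.ext h

theorem HerbrandT_fib_finite (v : Pl K) : (HerbrandT_fib K M v).Finite := by
  have h : ((fun P : Pl M => P.asIdeal) '' HerbrandT_fib K M v).Finite := by
    rw [HerbrandT_fib_image]
    exact Set.toFinite _
  exact h.of_finite_image (fun P _ Q _ h => HeightOneSpectrum.ext h)

theorem HerbrandT_fib_nonempty (v : Pl K) : (HerbrandT_fib K M v).Nonempty := by
  obtain ⟨⟨Q, hQ⟩⟩ := (inferInstance : Nonempty (Ideal.primesOver v.asIdeal (𝓞 M)))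
  rw [← HerbrandT_fib_image] at hQ
  obtain ⟨P, hP, -⟩ := hQ
  exact ⟨P, hP⟩

theorem HerbrandT_nonSplit_iff (v : Pl K) : NonSplit M v ↔ (HerbrandT_fib K M v).ncard = 1 := by
  constructor
  · intro h
    obtain ⟨P, hP⟩ := HerbrandT_fib_nonempty K M v
    rw [Set.ncard_eq_one]
    exact ⟨P, Set.eq_singleton_iff_unique_mem.2 ⟨hP, fun Q hQ => h Q P hQ hP⟩⟩
  · intro h P Q hP hQ
    rw [Set.ncard_eq_one] at h
    obtain ⟨R, hR⟩ := h
    have h1 : P ∈ HerbrandT_fib K M v := hP
    have h2 : Q ∈ HerbrandT_fib K M v := hQ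
    rw [hR] at h1 h2
    exact h1.trans h2.symm

theorem HerbrandT_fib_card [IsGalois K M] (p : ℕ) (hp : p.Prime) (hdeg : Module.finrank K M = p)
    (v : Pl K) : (HerbrandT_fib K M v).ncard = 1 ∨ (HerbrandT_fib K M v).ncard = p := by
  have h := Ideal.ncard_primesOver_mul_ramificationIdxIn_mul_inertiaDegIn v.asIdeal (𝓞 M)
    (M ≃ₐ[K] M)
  rw [IsGalois.card_aut_eq_finrank, hdeg, ← HerbrandT_fib_ncard] at h
  exact (Nat.dvd_prime hp).1 ⟨_, h.symm⟩

theorem HerbrandT_upT_insert (v : Pl K) (T : Set (Pl K)) :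
    upT M (insert v T) = HerbrandT_fib K M v ∪ upT M T := by
  ext P
  simp only [upT, HerbrandT_fib, Set.mem_ofPred_eq, Set.mem_union, Set.mem_insert_iff,
    exists_eq_or_imp]

theorem HerbrandT_upT_empty : upT M (∅ : Set (Pl K)) = ∅ := by
  ext P
  simp [upT]

theorem HerbrandT_upT_finite (T : Set (Pl K)) (hT : T.Finite) : (upT M T).Finite := by
  induction T, hT using Set.Finite.induction_on with
  | empty => rw [HerbrandT_upT_empty]; exact Set.finite_empty
  | insert _ _ ih =>
    rw [HerbrandT_upT_insert]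
    exact (HerbrandT_fib_finite K M _).union ih

theorem HerbrandT_disjoint (v : Pl K) (T : Set (Pl K)) (hv : v ∉ T) :
    Disjoint (HerbrandT_fib K M v) (upT M T) := by
  rw [Set.disjoint_left]
  rintro P hP ⟨w, hw, hPw⟩
  apply hv
  have h1 : v.asIdeal = w.asIdeal := by
    have e1 := (show P.asIdeal.LiesOver v.asIdeal from hP).over
    have e2 := hPw.over
    rw [e1, e2]
  rw [HeightOneSpectrum.ext h1]
  exact hw

theorem HerbrandT_nsCard_insert (v : Pl K) (T : Set (Pl K)) (hT : T.Finite) (hv : v ∉ T) :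
    (NonSplit M v → nsCard K M (insert v T) = nsCard K M T + 1) ∧
    (¬ NonSplit M v → nsCard K M (insert v T) = nsCard K M T) := by
  constructor
  · intro h
    have : {w ∈ insert v T | NonSplit M w} = insert v {w ∈ T | NonSplit M w} := by
      ext w
      simp only [Set.mem_ofPred_eq, Set.mem_insert_iff]
      constructor
      · rintro ⟨rfl | hw, h2⟩
        · exact Or.inl rfl
        · exact Or.inr ⟨hw, h2⟩
      · rintro (rfl | ⟨hw, h2⟩)
        · exact ⟨Or.inl rfl, h⟩
        · exact ⟨Or.inr hw, h2⟩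
    unfold nsCard
    rw [this, Set.ncard_insert_of_notMem (fun h3 => hv h3.1) (hT.subset (fun w hw => hw.1))]
  · intro h
    have : {w ∈ insert v T | NonSplit M w} = {w ∈ T | NonSplit M w} := by
      ext w
      simp only [Set.mem_ofPred_eq, Set.mem_insert_iff]
      constructor
      · rintro ⟨rfl | hw, h2⟩
        · exact absurd h2 h
        · exact ⟨hw, h2⟩
      · rintro ⟨hw, h2⟩
        exact ⟨Or.inr hw, h2⟩
    unfold nsCard
    rw [this]

theorem HerbrandT_upT_ncard [IsGalois K M] (p : ℕ) (hp : p.Prime)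
    (hdeg : Module.finrank K M = p) (T : Set (Pl K)) (hT : T.Finite) :
    (upT M T).ncard + (p - 1) * nsCard K M T = p * T.ncard := by
  induction T, hT using Set.Finite.induction_on with
  | empty => simp [HerbrandT_upT_empty, nsCard]
  | @insert v T hv hT ih =>
    rw [HerbrandT_upT_insert, Set.ncard_union_eq (HerbrandT_disjoint K M v T hv)
      (HerbrandT_fib_finite K M v) (HerbrandT_upT_finite K M T hT),
      Set.ncard_insert_of_notMem hv hT]
    obtain ⟨q, rfl⟩ : ∃ q, p = q + 1 := ⟨p - 1, by have := hp.pos; omega⟩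
    simp only [Nat.add_sub_cancel] at ih ⊢
    by_cases hns : NonSplit M v
    · rw [(HerbrandT_nsCard_insert K M v T hT hv).1 hns, (HerbrandT_nonSplit_iff K M v).1 hns]
      nlinarith
    · rw [(HerbrandT_nsCard_insert K M v T hT hv).2 hns]
      have h1 : (HerbrandT_fib K M v).ncard = q + 1 :=
        (HerbrandT_fib_card K M (q + 1) hp hdeg v).resolve_left
          (fun h => hns ((HerbrandT_nonSplit_iff K M v).2 h))
      rw [h1]
      nlinarith

theorem HerbrandT_nsCard_le (T : Set (Pl K)) (hT : T.Finite) : nsCard K M T ≤ T.ncard :=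
  Set.ncard_le_ncard (fun _ hw => hw.1) hT

end Count

section Restrict

open Fermat.Agent.S14 (lo2Lin lo2Lin_range lo2Lin_ker)

variable {X : Type} [CommGroup X] (V : Subgroup X)

/-- restriction to `V` of an endomorphism preserving `V` -/
def HerbrandT_res (f : X →* X) (hf : ∀ x ∈ V, f x ∈ V) : V →* V :=
  (f.comp V.subtype).codRestrict V (fun x => hf x x.2)

theorem HerbrandT_res_coe (f : X →* X) (hf : ∀ x ∈ V, f x ∈ V) (x : V) :
    ((HerbrandT_res V f hf x : V) : X) = f x := rfl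

theorem HerbrandT_res_range (f : X →* X) (hf : ∀ x ∈ V, f x ∈ V) :
    (HerbrandT_res V f hf).range.map V.subtype = V.map f := by
  ext y
  constructor
  · rintro ⟨_, ⟨x, rfl⟩, rfl⟩
    exact ⟨x, x.2, rfl⟩
  · rintro ⟨x, hx, rfl⟩
    exact ⟨_, ⟨⟨x, hx⟩, rfl⟩, rfl⟩

theorem HerbrandT_res_ker (f : X →* X) (hf : ∀ x ∈ V, f x ∈ V) :
    (HerbrandT_res V f hf).ker.map V.subtype = V ⊓ f.ker := by
  ext y
  constructor
  · rintro ⟨x, hx, rfl⟩
    exact ⟨x.2, congrArg Subtype.val (MonoidHom.mem_ker.1 hx)⟩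
  · rintro ⟨hy, hy2⟩
    exact ⟨⟨y, hy⟩, MonoidHom.mem_ker.2 (Subtype.ext (MonoidHom.mem_ker.1 hy2)), rfl⟩

theorem HerbrandT_relIndex (f g : X →* X) (hf : ∀ x ∈ V, f x ∈ V) (hg : ∀ x ∈ V, g x ∈ V) :
    (LinearMap.range (lo2Lin (HerbrandT_res V f hf))).toAddSubgroup.relIndex
      (LinearMap.ker (lo2Lin (HerbrandT_res V g hg))).toAddSubgroup
      = (V.map f).relIndex (V ⊓ g.ker) := by
  rw [lo2Lin_range, lo2Lin_ker, Subgroup.relIndex_toAddSubgroup,
    ← Subgroup.relIndex_map_map_of_injective _ _ V.subtype_injective, HerbrandT_res_range,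
    HerbrandT_res_ker]

end Restrict

section Main

open Fermat.Agent.S14 (lo2Lin lo2Lin_range lo2Lin_ker lo2Lin_id lo2Lin_comp lo2Lin_prod lo2Lin_div
  lo2_rank)

variable (K M : Type) [Field K] [NumberField K] [Field M] [NumberField M] [Algebra K M]

/-- the inclusion `Kˣ → Mˣ` -/
def HerbrandT_iota : Kˣ →* Mˣ := Units.map (algebraMap K M : K →* M)

theorem HerbrandT_iota_injective : Function.Injective (HerbrandT_iota K M) := by
  intro a b hab
  have h : algebraMap K M (a : K) = algebraMap K M (b : K) := congrArg Units.val hab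
  exact Units.ext ((algebraMap K M).injective h)

/-- the norm as an endomorphism of `Mˣ` -/
def HerbrandT_nm : Mˣ →* Mˣ := (HerbrandT_iota K M).comp (normU K M)

theorem HerbrandT_nm_ker : (HerbrandT_nm K M).ker = (normU K M).ker := by
  ext x
  rw [MonoidHom.mem_ker, MonoidHom.mem_ker]
  constructor
  · intro h
    apply HerbrandT_iota_injective K M
    rw [map_one]
    exact h
  · intro h
    show HerbrandT_iota K M (normU K M x) = 1
    rw [h, map_one]

theorem HerbrandT_actU_one : actU K M 1 = MonoidHom.id _ := by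
  ext x; rfl

theorem HerbrandT_actU_mul (σ σ' : M ≃ₐ[K] M) :
    actU K M (σ * σ') = (actU K M σ).comp (actU K M σ') := by
  ext x; rfl

variable {K M} in
theorem HerbrandT_fixed (τ : M ≃ₐ[K] M) (hτ : ∀ σ, σ ∈ Subgroup.zpowers τ) (x : M)
    (hx : τ x = x) (σ : M ≃ₐ[K] M) : σ x = x := by
  have h1 : τ ∈ MulAction.stabilizer (M ≃ₐ[K] M) x := hx
  have h2 : Subgroup.zpowers τ ≤ MulAction.stabilizer (M ≃ₐ[K] M) x := by
    rw [Subgroup.zpowers_le]
    exact h1
  exact h2 (hτ σ)

end Main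

theorem herbrandT (h1 : Stmt_UnitRank) (h2 : Stmt_UnitAction) : Stmt_HerbrandT := by
  intro p K M _ _ _ _ _ _ hp hdeg hK τ hτ T hT
  classical
  obtain ⟨hN, hS, hI⟩ := h2 K M T
  have hM : IsTotallyComplex M := isTotallyComplex_of_algebra K M
  have hord : orderOf τ = p := by
    rw [orderOf_eq_card_of_forall_mem_zpowers hτ, IsGalois.card_aut_eq_finrank, hdeg]
  intro V
  -- the operators on `V`
  have hnm : ∀ x ∈ V, HerbrandT_nm K M x ∈ V := fun x hx => (hI _).2 (hN x hx)
  have hD : ∀ x ∈ V, (actU K M τ / MonoidHom.id Mˣ : Mˣ →* Mˣ) x ∈ V := fun x hx =>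
    V.div_mem (hS τ x hx) hx
  let sV : (M ≃ₐ[K] M) → (V →* V) := fun σ => HerbrandT_res V (actU K M σ) (hS σ)
  have sV_one : sV 1 = MonoidHom.id _ := by
    ext x; rfl
  have sV_mul : ∀ σ σ', sV (σ * σ') = (sV σ).comp (sV σ') := by
    intro σ σ'; ext x; rfl
  have sV_pow : ∀ i : ℕ, (S14.lo2Lin (sV τ)) ^ i = S14.lo2Lin (sV (τ ^ i)) := by
    intro i
    induction i with
    | zero => rw [pow_zero, pow_zero, sV_one, S14.lo2Lin_id]
    | succ i ih => rw [pow_succ, pow_succ, ih, sV_mul, S14.lo2Lin_comp]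
  have sV_prod : ∏ σ : M ≃ₐ[K] M, sV σ = HerbrandT_res V (HerbrandT_nm K M) hnm := by
    ext x
    rw [MonoidHom.finsetProd_apply]
    show (((∏ σ : M ≃ₐ[K] M, sV σ x : V) : Mˣ) : M) = algebraMap K M (Algebra.norm K ((x : Mˣ) : M))
    rw [Algebra.norm_eq_prod_automorphisms]
    push_cast
    rfl
  have sV_sum : ∑ i ∈ Finset.range p, (S14.lo2Lin (sV τ)) ^ i
      = S14.lo2Lin (HerbrandT_res V (HerbrandT_nm K M) hnm) := by
    have e1 : (Finset.univ : Finset (M ≃ₐ[K] M)) =
        Finset.image (fun i => τ ^ i) (Finset.range (orderOf τ)) :=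
      (IsCyclic.image_range_orderOf hτ).symm
    rw [← sV_prod, e1, Finset.prod_image, S14.lo2Lin_prod, hord]
    · exact Finset.sum_congr rfl fun i _ => sV_pow i
    · intro i hi j hj hij
      exact pow_injOn_Iio_orderOf (by simpa using hi) (by simpa using hj) hij
  have sV_D : S14.lo2Lin (sV τ) - 1
      = S14.lo2Lin (HerbrandT_res V (actU K M τ / MonoidHom.id Mˣ) hD) := by
    rw [← S14.lo2Lin_id, ← S14.lo2Lin_div]
    congr 1
  have hpow : (S14.lo2Lin (sV τ)) ^ p = 1 := by
    rw [sV_pow, ← hord, pow_orderOf_eq_one, sV_one, S14.lo2Lin_id]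
  -- the invariants
  have hinv : V ⊓ (actU K M τ / MonoidHom.id Mˣ : Mˣ →* Mˣ).ker
      = (UT K T).map (HerbrandT_iota K M) := by
    ext y
    constructor
    · rintro ⟨hy, hy2⟩
      have e1 : actU K M τ y / y = 1 := MonoidHom.mem_ker.1 hy2
      have e2 : τ (y : M) = (y : M) := congrArg Units.val (div_eq_one.1 e1)
      obtain ⟨x, hx⟩ := (IsGalois.mem_range_algebraMap_iff_fixed (F := K) (y : M)).2
        (HerbrandT_fixed τ hτ _ e2)
      have hx0 : x ≠ 0 := by
        intro h0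
        rw [h0, map_zero] at hx
        exact y.ne_zero hx.symm
      have e3 : HerbrandT_iota K M (Units.mk0 x hx0) = y := Units.ext hx
      refine ⟨Units.mk0 x hx0, (hI _).1 ?_, e3⟩
      show HerbrandT_iota K M (Units.mk0 x hx0) ∈ V
      rw [e3]; exact hy
    · rintro ⟨x, hx, rfl⟩
      refine ⟨(hI x).2 hx, MonoidHom.mem_ker.2 ?_⟩
      show actU K M τ (HerbrandT_iota K M x) / HerbrandT_iota K M x = 1
      rw [div_eq_one]
      ext
      exact τ.commutes (x : K)
  let iV : UT K T →* V :=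
    ((HerbrandT_iota K M).comp (UT K T).subtype).codRestrict V (fun x => (hI x).2 x.2)
  let incl : Additive (UT K T) →ₗ[ℤ] Additive V := (MonoidHom.toAdditive iV).toIntLinearMap
  have incl_inj : Function.Injective incl := by
    intro a b hab
    have e1 : iV a.toMul = iV b.toMul := hab
    have e2 : HerbrandT_iota K M (a.toMul : Kˣ) = HerbrandT_iota K M (b.toMul : Kˣ) :=
      congrArg Subtype.val e1
    exact Subtype.ext (HerbrandT_iota_injective K M e2)
  have incl_range : LinearMap.range incl = LinearMap.ker (S14.lo2Lin (sV τ) - 1) := by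
    rw [sV_D]
    ext a
    rw [LinearMap.mem_ker]
    constructor
    · rintro ⟨b, rfl⟩
      have e1 : ((iV b.toMul : V) : Mˣ) ∈ V ⊓ (actU K M τ / MonoidHom.id Mˣ : Mˣ →* Mˣ).ker := by
        rw [hinv]; exact ⟨_, b.toMul.2, rfl⟩
      have e2 : HerbrandT_res V (actU K M τ / MonoidHom.id Mˣ) hD (iV b.toMul) = 1 :=
        Subtype.ext (MonoidHom.mem_ker.1 e1.2)
      exact congrArg Additive.ofMul e2
    · intro ha
      have e1 : HerbrandT_res V (actU K M τ / MonoidHom.id Mˣ) hD a.toMul = 1 := ha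
      have e2 : ((a.toMul : V) : Mˣ) ∈ V ⊓ (actU K M τ / MonoidHom.id Mˣ : Mˣ →* Mˣ).ker :=
        ⟨a.toMul.2, MonoidHom.mem_ker.2 (congrArg Subtype.val e1)⟩
      rw [hinv] at e2
      obtain ⟨x, hx, hxa⟩ := e2
      refine ⟨Additive.ofMul ⟨x, hx⟩, ?_⟩
      have e3 : iV ⟨x, hx⟩ = a.toMul := Subtype.ext hxa
      exact congrArg Additive.ofMul e3
  have hker : Module.finrank ℤ (LinearMap.ker (S14.lo2Lin (sV τ) - 1))
      = Units.rank K + T.ncard := by
    rw [← incl_range, LinearMap.finrank_range_of_inj incl_inj, (h1 K T hT).2]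
  have hfin := HerbrandT_upT_finite K M T hT
  have hcount := HerbrandT_upT_ncard K M p hp hdeg T hT
  have hle := HerbrandT_nsCard_le K M T hT
  have hrank : Module.finrank ℤ (Additive V) = (Units.rank K + T.ncard)
      + (p - 1) * (Units.rank K + 1 + (T.ncard - nsCard K M T)) := by
    rw [(h1 M (upT M T) hfin).2]
    have r1 := S14.lo2_rank K
    have r2 := S14.lo2_rank M
    have r3 := Module.finrank_mul_finrank ℚ K M
    rw [hdeg, ← r1, ← r2] at r3
    obtain ⟨q, rfl⟩ : ∃ q, p = q + 1 := ⟨p - 1, by have := hp.pos; omega⟩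
    obtain ⟨ts, hts⟩ : ∃ ts, T.ncard = nsCard K M T + ts := ⟨_, (Nat.add_sub_cancel' hle).symm⟩
    simp only [Nat.add_sub_cancel] at hcount ⊢
    rw [hts] at hcount ⊢
    rw [Nat.add_sub_cancel_left]
    nlinarith
  have hfinite : Module.Finite ℤ (Additive V) := (h1 M (upT M T) hfin).1
  obtain ⟨a0, a1, heq⟩ := S14.herbrand p hp (Additive V) (S14.lo2Lin (sV τ)) hpow _ _ hker hrank
  rw [sV_sum, sV_D, HerbrandT_relIndex] at a0
  rw [sV_sum, sV_D, HerbrandT_relIndex] at a1
  rw [sV_sum, sV_D, HerbrandT_relIndex, HerbrandT_relIndex] at heq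
  have hmapN : V.map (HerbrandT_nm K M) = (V.map (normU K M)).map (HerbrandT_iota K M) := by
    rw [Subgroup.map_map]; rfl
  rw [hinv, hmapN, Subgroup.relIndex_map_map_of_injective _ _ (HerbrandT_iota_injective K M)]
    at a0 heq
  rw [HerbrandT_nm_ker] at a1 heq
  refine ⟨a0, a1, ?_⟩
  obtain ⟨ts, hts⟩ : ∃ ts, T.ncard = nsCard K M T + ts := ⟨_, (Nat.add_sub_cancel' hle).symm⟩
  rw [hts, Nat.add_sub_cancel_left] at heq
  have hpp : 0 < p ^ (Units.rank K + ts) := pow_pos hp.pos _
  apply Nat.eq_of_mul_eq_mul_right hpp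
  calc _ = (V.map (normU K M)).relIndex (UT K T) * p ^ (Units.rank K + 1 + ts) := by ring
    _ = _ := heq
    _ = _ := by ring

end Fermat.Agent.CFT.HNT
end

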