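/-
TEAM CFT -> S55, block [GLOB-HNT], package (S5): lower bound for the local norm index.
-/
import Fermat.Agent.CFT.HNT.Interface

set_option autoImplicit false
set_option linter.unusedSectionVars false

noncomputable section

namespace Fermat.Agent.CFT.HNT

open NumberField IsDedekindDomain

section

variable (K M : Type) [Field K] [NumberField K] [Field M] [NumberField M] [Algebra K M]

/-- `[M:K]`-th powers are norms, hence local norms. -/
theorem localCount_pow_mem_LN (v : Pl K) (b : Kˣ) : b ^ Module.finrank K M ∈ LN K M v := by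
  have h : b ^ Module.finrank K M = normU K M (Units.map (algebraMap K M : K →* M) b) := by
    ext
    simp [Algebra.norm_algebraMap]
  rw [h]
  exact normU_mem_LN K M v _

/-- abstract counting: elements `c v` (`v ∈ S`) which are "independent of order `p`" modulo the
subgroups `A v` give `p ^ |S| ≤ [G : B]` for every `B ≤ ⨅ A v`. -/
theorem localCount_abstract {G : Type*} [CommGroup G] {S : Type*} [Fintype S] [DecidableEq S]
    (p : ℕ) (hp : p.Prime) (A : S → Subgroup G) (B : Subgroup G) (hB : ∀ v, B ≤ A v)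
    (hfin : B.index ≠ 0) (c : S → G) (h1 : ∀ v, c v ∉ A v) (hpow : ∀ v, c v ^ p ∈ A v)
    (h2 : ∀ v w, w ≠ v → c v ∈ A w) : p ^ Fintype.card S ≤ B.index := by
  have hfinite : Finite (G ⧸ B) := Subgroup.index_ne_zero_iff_finite.1 hfin
  let Φ : (S → Fin p) → G ⧸ B := fun a => QuotientGroup.mk (∏ v, c v ^ (a v : ℕ))
  have hinj : Function.Injective Φ := by
    intro a a' haa
    have hmem : (∏ v, c v ^ (a v : ℕ))⁻¹ * ∏ v, c v ^ (a' v : ℕ) ∈ B := QuotientGroup.eq.1 haa
    funext w
    have hmemw := hB w hmem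
    -- work in the quotient by `A w`
    let π := QuotientGroup.mk' (A w)
    have hπ : ∀ a : S → Fin p, π (∏ v, c v ^ (a v : ℕ)) = π (c w) ^ (a w : ℕ) := by
      intro a
      rw [map_prod, Finset.prod_eq_single w]
      · rw [map_pow]
      · intro v _ hv
        have h3 : π (c v) = 1 := (QuotientGroup.eq_one_iff (c v)).2 (h2 v w hv.symm)
        rw [map_pow, h3, one_pow]
      · intro h
        exact absurd (Finset.mem_univ w) h
    have heq : π (c w) ^ (a w : ℕ) = π (c w) ^ (a' w : ℕ) := by
      rw [← hπ a, ← hπ a']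
      exact QuotientGroup.eq.2 hmemw
    have hne : π (c w) ≠ 1 := fun h => h1 w ((QuotientGroup.eq_one_iff (c w)).1 h)
    have hpw : π (c w) ^ p = 1 := by
      rw [← map_pow]
      exact (QuotientGroup.eq_one_iff _).2 (hpow w)
    have hord : orderOf (π (c w)) = p := by
      have := Fact.mk hp
      exact orderOf_eq_prime hpw hne
    have hmod := pow_eq_pow_iff_modEq.1 heq
    rw [hord] at hmod
    exact Fin.ext (Nat.ModEq.eq_of_lt_of_lt hmod (a w).2 (a' w).2)
  have hcard := Nat.card_le_card_of_injective Φ hinj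
  rw [Nat.card_eq_fintype_card, Fintype.card_fun, Fintype.card_fin] at hcard
  exact hcard

end

theorem localCount (h6 : Stmt_Open) (h7 : Stmt_WeakApprox) : Stmt_LocalCount := by
  classical
  intro p K M _ _ _ _ _ hp hdeg hLI T hT hidx
  set Tns : Set (Pl K) := {v ∈ T | NonSplit M v} with hTns
  have hfinTns : Tns.Finite := hT.subset fun v hv => hv.1
  let _ : Fintype Tns := hfinTns.fintype
  -- the radii of openness
  choose N hN using h6 K M
  let n : ℕ := hfinTns.toFinset.sup N
  have hn : ∀ v : Tns, N v ≤ n := fun v => Finset.le_sup (hfinTns.mem_toFinset.2 v.2)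
  -- non norms
  choose b hb using fun v : Tns => hLI v.1 v.2.2
  -- weak approximation
  have hex : ∀ v : Tns, ∃ y : K, y ≠ 0 ∧ ∀ w ∈ hfinTns.toFinset,
      Near w n (y / (if w = v.1 then ((b v : Kˣ) : K) else 1)) := fun v =>
    h7 K hfinTns.toFinset (fun w => if w = v.1 then ((b v : Kˣ) : K) else 1)
      (fun w _ => by split_ifs <;> simp) n
  choose y hy0 hy using hex
  let c : Tns → Kˣ := fun v => Units.mk0 (y v) (hy0 v)
  have hc1 : ∀ v : Tns, c v / b v ∈ LN K M v.1 := by
    intro v
    have h := hy v v.1 (hfinTns.mem_toFinset.2 v.2)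
    rw [if_pos rfl] at h
    have h' := hN v.1 _ (h.mono (hn v))
    rw [mem_LN, Units.val_div_eq_div_val]
    exact h'
  have hc2 : ∀ v w : Tns, w ≠ v → c v ∈ LN K M w.1 := by
    intro v w hwv
    have h := hy v w.1 (hfinTns.mem_toFinset.2 w.2)
    rw [if_neg (fun h => hwv (Subtype.ext h)), div_one] at h
    exact hN w.1 _ (h.mono (hn w))
  have hmain := localCount_abstract p hp (fun v : Tns => LN K M v.1) (LNT K M T)
    (fun v => iInf₂_le v.1 v.2.1) hidx c
    (fun v hcv => hb v (by
      have := (LN K M v.1).div_mem hcv (hc1 v)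
      rwa [div_div_cancel] at this))
    (fun v => hdeg ▸ localCount_pow_mem_LN K M v.1 (c v)) hc2
  have hcard : Fintype.card Tns = nsCard K M T := by
    rw [nsCard, ← Nat.card_coe_set_eq, Nat.card_eq_fintype_card]
  rwa [hcard] at hmain

end Fermat.Agent.CFT.HNT
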