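import Fermat.Agent.CFT.HNT.Interface

/-! # CFT / HNT-S6 : the group of local norms is open (Newton iteration inside `K`) -/

set_option autoImplicit false

namespace Fermat.Agent.CFT.HNT

open NumberField IsDedekindDomain

section

variable {K : Type} [Field K] [NumberField K]

lemma Open_val_natCast_le_one (v : Pl K) (n : ℕ) : v.valuation K (n : K) ≤ 1 := by
  have := v.valuation_le_one (K := K) (n : 𝓞 K)
  simpa using this

lemma Open_binom (v : Pl K) {z : K} (hz : v.valuation K z ≤ 1) (d : ℕ) :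
    v.valuation K ((1 + z) ^ d - 1 - d * z) ≤ v.valuation K z ^ 2 := by
  induction d with
  | zero => simp
  | succ d ih =>
    have h : (1 + z) ^ (d + 1) - 1 - ((d + 1 : ℕ) : K) * z =
        (1 + z) * ((1 + z) ^ d - 1 - d * z) + d * z ^ 2 := by
      push_cast; ring
    rw [h]
    refine le_trans (Valuation.map_add _ _ _) (max_le ?_ ?_)
    · rw [map_mul]
      have h1 : v.valuation K (1 + z) ≤ 1 :=
        le_trans (Valuation.map_add _ _ _) (max_le (by simp) hz)
      calc v.valuation K (1 + z) * v.valuation K ((1 + z) ^ d - 1 - d * z)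
          ≤ 1 * v.valuation K z ^ 2 := mul_le_mul' h1 ih
        _ = v.valuation K z ^ 2 := one_mul _
    · rw [map_mul, map_pow]
      calc v.valuation K (d : K) * v.valuation K z ^ 2
          ≤ 1 * v.valuation K z ^ 2 := mul_le_mul' (Open_val_natCast_le_one v d) le_rfl
        _ = v.valuation K z ^ 2 := one_mul _

lemma Open_exists_exp (v : Pl K) {d : ℕ} (hd : 0 < d) :
    ∃ e : ℕ, v.valuation K (d : K) = WithZero.exp (-(e : ℤ)) := by
  have h0 : v.valuation K (d : K) ≠ 0 := by
    rw [Ne, map_eq_zero]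
    exact_mod_cast hd.ne'
  have h1 := Open_val_natCast_le_one v d
  rw [← WithZero.exp_log h0, ← WithZero.exp_zero, WithZero.exp_le_exp] at h1
  refine ⟨(-(WithZero.log (v.valuation K (d : K)))).toNat, ?_⟩
  rw [Int.toNat_of_nonneg (by omega), neg_neg, WithZero.exp_log h0]

lemma Open_step (v : Pl K) {d : ℕ} (hd : 0 < d) {e : ℕ}
    (he : v.valuation K (d : K) = WithZero.exp (-(e : ℤ))) {k : ℕ} (hk : 2 * e + 1 ≤ k) {u : K}
    (hu : Near v k u) : ∃ y : K, y ≠ 0 ∧ Near v (k + 1) (u / y ^ d) := by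
  have hd0 : (d : K) ≠ 0 := by exact_mod_cast hd.ne'
  set z : K := (u - 1) / d with hz
  have hvz : v.valuation K z ≤ WithZero.exp ((e : ℤ) - k) := by
    rw [hz, map_div₀, he]
    have h1 : (WithZero.exp ((e : ℤ) - k) : WithZero (Multiplicative ℤ)) =
        WithZero.exp (-(k : ℤ)) / WithZero.exp (-(e : ℤ)) := by
      rw [← WithZero.exp_sub]; congr 1; ring
    rw [h1]
    rw [div_eq_mul_inv, div_eq_mul_inv]
    exact mul_le_mul' hu le_rfl
  have hvz1 : v.valuation K z < 1 := by
    refine lt_of_le_of_lt hvz ?_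
    rw [← WithZero.exp_zero, WithZero.exp_lt_exp]
    omega
  have hy1 : v.valuation K (1 + z) = 1 := by
    have h2 : v.valuation K z < v.valuation K (1 : K) := by rwa [map_one]
    have h3 := Valuation.map_add_eq_of_lt_left (v.valuation K) h2
    rw [map_one] at h3
    exact h3
  have hy0 : (1 + z) ≠ 0 := by
    intro h
    rw [h, map_zero] at hy1
    exact zero_ne_one hy1
  refine ⟨1 + z, hy0, ?_⟩
  have hdz : (d : K) * z = u - 1 := by rw [hz]; field_simp
  have hε := Open_binom v hvz1.le d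
  rw [hdz] at hε
  unfold Near
  have h4 : u / (1 + z) ^ d - 1 = -(((1 + z) ^ d - 1 - (u - 1)) / (1 + z) ^ d) := by
    field_simp; ring
  rw [h4, Valuation.map_neg, map_div₀, map_pow, hy1, one_pow, div_one]
  refine le_trans hε ?_
  calc v.valuation K z ^ 2 ≤ (WithZero.exp ((e : ℤ) - k)) ^ 2 := pow_le_pow_left' hvz 2
    _ = WithZero.exp (2 • ((e : ℤ) - k)) := (WithZero.exp_nsmul 2 _).symm
    _ ≤ WithZero.exp (-((k + 1 : ℕ) : ℤ)) := by
      rw [WithZero.exp_le_exp]
      push_cast
      simp only [nsmul_eq_mul]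
      push_cast
      omega

lemma Open_iter (v : Pl K) {d : ℕ} (hd : 0 < d) {e : ℕ}
    (he : v.valuation K (d : K) = WithZero.exp (-(e : ℤ))) {x : K}
    (hx : Near v (2 * e + 1) x) (j : ℕ) : ∃ y : K, y ≠ 0 ∧ Near v (2 * e + 1 + j) (x / y ^ d) := by
  induction j with
  | zero => exact ⟨1, one_ne_zero, by simpa using hx⟩
  | succ j ih =>
    obtain ⟨y, hy0, hy⟩ := ih
    obtain ⟨y', hy'0, hy'⟩ := Open_step v hd he (k := 2 * e + 1 + j) (by omega) hy
    refine ⟨y * y', mul_ne_zero hy0 hy'0, ?_⟩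
    rw [mul_pow, ← div_div]
    exact hy'

end

theorem isOpen : Stmt_Open := by
  intro K M _ _ _ _ _ v
  have : FiniteDimensional K M := Module.Finite.of_restrictScalars_finite ℚ K M
  have hd : 0 < Module.finrank K M := Module.finrank_pos
  obtain ⟨e, he⟩ := Open_exists_exp v hd
  refine ⟨2 * e + 1, fun x hx m => ?_⟩
  obtain ⟨y, hy0, hy⟩ := Open_iter v hd he hx m
  refine ⟨algebraMap K M y, (map_ne_zero _).2 hy0, ?_⟩
  rw [Algebra.norm_algebraMap]
  exact hy.mono (by omega)

end Fermat.Agent.CFT.HNT
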