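/-
TEAM CFT -> S55, block [GLOB-HNT], package S4 (helper3), part 2: ideals of Dedekind domains.

* `cnt v I` : the exponent of `v` in `I`;
* `exists_primeTo` : the prime-to-`T` part of an ideal;
* `cnt_relNorm_eq` : the exponent of `v` in the relative norm of `A` only depends on the exponents
  in `A` of the primes above `v`.
-/
import Mathlib

set_option autoImplicit false

namespace Fermat.Agent.CFT.HNT

namespace SecondIneq

open IsDedekindDomain UniqueFactorizationMonoid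

section Dedekind

variable {R : Type*} [CommRing R] [IsDedekindDomain R]

/-- the exponent of `v` in `I` -/
noncomputable abbrev cnt (v : HeightOneSpectrum R) (I : Ideal R) : ℕ :=
  (Associates.mk v.asIdeal).count (Associates.mk I).factors

theorem cnt_mul (v : HeightOneSpectrum R) {I J : Ideal R} (hI : I ≠ ⊥) (hJ : J ≠ ⊥) :
    cnt v (I * J) = cnt v I + cnt v J := by
  unfold cnt
  rw [← Associates.mk_mul_mk]
  exact Associates.count_mul (Associates.mk_ne_zero.2 hI) (Associates.mk_ne_zero.2 hJ)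
    v.associates_irreducible

theorem cnt_ne_zero_iff (v : HeightOneSpectrum R) {I : Ideal R} (hI : I ≠ ⊥) :
    cnt v I ≠ 0 ↔ v.asIdeal ∣ I :=
  Associates.count_ne_zero_iff_dvd hI v.irreducible

theorem cnt_eq_zero_iff (v : HeightOneSpectrum R) {I : Ideal R} (hI : I ≠ ⊥) :
    cnt v I = 0 ↔ ¬ v.asIdeal ∣ I := by
  rw [← cnt_ne_zero_iff v hI, not_not]

theorem cnt_self (v : HeightOneSpectrum R) : cnt v v.asIdeal = 1 :=
  Associates.count_self v.associates_irreducible

theorem eq_of_dvd (v w : HeightOneSpectrum R) (h : v.asIdeal ∣ w.asIdeal) : v = w := by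
  apply HeightOneSpectrum.ext
  exact associated_iff_eq.1 ((v.prime.dvd_prime_iff_associated w.prime).1 h)

theorem cnt_of_ne {v w : HeightOneSpectrum R} (h : v ≠ w) : cnt v w.asIdeal = 0 :=
  (cnt_eq_zero_iff v w.ne_bot).2 fun hd => h (eq_of_dvd v w hd)

theorem valuation_algebraMap_eq (K : Type*) [Field K] [Algebra R K] [IsFractionRing R K]
    (v : HeightOneSpectrum R) {x : R} (hx : x ≠ 0) :
    v.valuation K (algebraMap R K x) = WithZero.exp (-(cnt v (Ideal.span {x}) : ℤ)) := by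
  rw [HeightOneSpectrum.valuation_of_algebraMap, v.intValuation_if_neg hx]

/-- the prime-to-`T` part of an ideal -/
theorem exists_primeTo (T : Set (HeightOneSpectrum R)) (J : Ideal R) (hJ : J ≠ ⊥) :
    ∃ I : Ideal R, I ≠ ⊥ ∧ (∀ v ∈ T, ¬ v.asIdeal ∣ I) ∧ ∀ v ∉ T, cnt v I = cnt v J := by
  classical
  set s := normalizedFactors J with hs
  let p : Ideal R → Prop := fun P => ∀ v ∈ T, P ≠ v.asIdeal
  have hprod : (s.filter p).prod * (s.filter fun P => ¬ p P).prod = J := by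
    rw [← Multiset.prod_add, Multiset.filter_add_not]
    exact associated_iff_eq.1 (prod_normalizedFactors hJ)
  have h1 : (s.filter p).prod ≠ ⊥ := by
    intro h
    rw [h] at hprod
    exact hJ (by rw [← hprod]; simp)
  have h2 : (s.filter fun P => ¬ p P).prod ≠ ⊥ := by
    intro h
    rw [h] at hprod
    exact hJ (by rw [← hprod]; simp)
  refine ⟨(s.filter p).prod, h1, ?_, ?_⟩
  · intro v hv hd
    obtain ⟨P, hP, hvP⟩ := v.prime.exists_mem_multiset_dvd hd
    rw [Multiset.mem_filter] at hP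
    have hPprime : Prime P := prime_of_normalized_factor P hP.1
    exact hP.2 v hv (associated_iff_eq.1 ((v.prime.dvd_prime_iff_associated hPprime).1 hvP)).symm
  · intro v hv
    rw [← hprod, cnt_mul v h1 h2]
    have : cnt v (s.filter fun P => ¬ p P).prod = 0 := by
      rw [cnt_eq_zero_iff v h2]
      intro hd
      obtain ⟨P, hP, hvP⟩ := v.prime.exists_mem_multiset_dvd hd
      rw [Multiset.mem_filter] at hP
      have hnp : ¬ p P := hP.2
      simp only [p, not_forall, not_not] at hnp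
      obtain ⟨w, hw, rfl⟩ := hnp
      exact hv ((eq_of_dvd v w hvP) ▸ hw)
    rw [this, add_zero]

end Dedekind

section RelNorm

open NumberField

variable {K M : Type} [Field K] [NumberField K] [Field M] [NumberField M] [Algebra K M]

theorem exists_prime_over_of_dvd_relNorm (v : HeightOneSpectrum (𝓞 K)) (C : Ideal (𝓞 M)) :
    C ≠ ⊥ → v.asIdeal ∣ Ideal.relNorm (𝓞 K) C →
      ∃ P : HeightOneSpectrum (𝓞 M), P.asIdeal.LiesOver v.asIdeal ∧ P.asIdeal ∣ C := by
  refine induction_on_prime C ?_ ?_ ?_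
  · intro h
    exact absurd rfl h
  · intro x hx _ hd
    rw [Ideal.isUnit_iff] at hx
    rw [hx, Ideal.relNorm_top] at hd
    exact absurd (isUnit_of_dvd_unit hd (Ideal.isUnit_iff.2 rfl)) v.prime.not_isUnit
  · intro C₁ P₁ hC₁ hP₁ ih _ hd
    rw [map_mul] at hd
    rcases v.prime.dvd_or_dvd hd with h | h
    · have hP₁prime : P₁.IsPrime := Ideal.isPrime_of_prime hP₁
      have hP₁0 : P₁ ≠ ⊥ := hP₁.ne_zero
      obtain ⟨s, hs⟩ := Ideal.exists_relNorm_eq_pow_of_isPrime P₁ (P₁.under (𝓞 K))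
      rw [hs] at h
      have h1 : v.asIdeal ∣ P₁.under (𝓞 K) := v.prime.dvd_of_dvd_pow h
      have hp0 : P₁.under (𝓞 K) ≠ ⊥ := by
        intro h0
        have : P₁.LiesOver (⊥ : Ideal (𝓞 K)) := ⟨h0.symm⟩
        exact hP₁0 (Ideal.eq_bot_of_liesOver_bot (𝓞 K) P₁)
      have hpprime : Prime (P₁.under (𝓞 K)) := Ideal.prime_of_isPrime hp0 inferInstance
      have h2 : v.asIdeal = P₁.under (𝓞 K) :=
        associated_iff_eq.1 ((v.prime.dvd_prime_iff_associated hpprime).1 h1)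
      exact ⟨⟨P₁, hP₁prime, hP₁0⟩, ⟨h2⟩, Dvd.intro _ rfl⟩
    · obtain ⟨P, hP, hPd⟩ := ih hC₁ h
      exact ⟨P, hP, Dvd.dvd.mul_left hPd _⟩

theorem cnt_relNorm_eq (v : HeightOneSpectrum (𝓞 K)) (A B : Ideal (𝓞 M)) (hA : A ≠ ⊥) (hB : B ≠ ⊥)
    (h : ∀ P : HeightOneSpectrum (𝓞 M), P.asIdeal.LiesOver v.asIdeal → cnt P A = cnt P B) :
    cnt v (Ideal.relNorm (𝓞 K) A) = cnt v (Ideal.relNorm (𝓞 K) B) := by
  obtain ⟨A', B', G, hrel, hA', hB'⟩ := exists_reduced_factors A hA B
  have hG0 : G ≠ ⊥ := by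
    rintro rfl
    exact hA (by rw [← hA']; simp)
  have hA'0 : A' ≠ ⊥ := by
    rintro rfl
    exact hA (by rw [← hA']; simp)
  have hB'0 : B' ≠ ⊥ := by
    rintro rfl
    exact hB (by rw [← hB']; simp)
  have hcnt : ∀ P : HeightOneSpectrum (𝓞 M), P.asIdeal.LiesOver v.asIdeal →
      ¬ P.asIdeal ∣ A' ∧ ¬ P.asIdeal ∣ B' := by
    intro P hP
    have h1 := h P hP
    rw [← hA', ← hB', cnt_mul P hG0 hA'0, cnt_mul P hG0 hB'0] at h1
    have h2 : cnt P A' = cnt P B' := by omega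
    have h3 : ¬ P.asIdeal ∣ A' := by
      intro hd
      have hd' : P.asIdeal ∣ B' := by
        rw [← cnt_ne_zero_iff P hB'0, ← h2, cnt_ne_zero_iff P hA'0]
        exact hd
      exact P.prime.not_isUnit (hrel hd hd')
    refine ⟨h3, ?_⟩
    rw [← cnt_eq_zero_iff P hB'0, ← h2, cnt_eq_zero_iff P hA'0]
    exact h3
  have hrn : ∀ C : Ideal (𝓞 M), C ≠ ⊥ → Ideal.relNorm (𝓞 K) C ≠ ⊥ := fun C hC =>
    fun h0 => hC (Ideal.relNorm_eq_bot_iff.1 h0)
  have hzA : cnt v (Ideal.relNorm (𝓞 K) A') = 0 := by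
    rw [cnt_eq_zero_iff v (hrn _ hA'0)]
    intro hd
    obtain ⟨P, hP, hPd⟩ := exists_prime_over_of_dvd_relNorm v A' hA'0 hd
    exact (hcnt P hP).1 hPd
  have hzB : cnt v (Ideal.relNorm (𝓞 K) B') = 0 := by
    rw [cnt_eq_zero_iff v (hrn _ hB'0)]
    intro hd
    obtain ⟨P, hP, hPd⟩ := exists_prime_over_of_dvd_relNorm v B' hB'0 hd
    exact (hcnt P hP).2 hPd
  rw [← hA', ← hB', map_mul, map_mul, cnt_mul v (hrn _ hG0) (hrn _ hA'0),
    cnt_mul v (hrn _ hG0) (hrn _ hB'0), hzA, hzB]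

/-- a prime of relative degree one has relative norm the prime below. -/
theorem relNorm_eq_of_absNorm_eq (q : Ideal (𝓞 K)) (Q : Ideal (𝓞 M)) [q.IsPrime] (hq : q ≠ ⊥)
    [Q.LiesOver q] (h : Ideal.absNorm Q = Ideal.absNorm q) : Ideal.relNorm (𝓞 K) Q = q := by
  obtain ⟨s, hs⟩ := Ideal.exists_relNorm_eq_pow_of_isPrime Q q
  have h1 : Ideal.absNorm (Ideal.relNorm (𝓞 K) Q) = Ideal.absNorm Q :=
    Ideal.absNorm_relNorm (𝓞 K) (𝓞 M) Q
  rw [hs, map_pow, h] at h1
  have h2 : 1 < Ideal.absNorm q := by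
    have h0 : Ideal.absNorm q ≠ 0 := by
      rw [Ne, Ideal.absNorm_eq_zero_iff]; exact hq
    have h1' : Ideal.absNorm q ≠ 1 := by
      rw [Ne, Ideal.absNorm_eq_one_iff]; exact Ideal.IsPrime.ne_top inferInstance
    omega
  have h3 : s = 1 := by
    have : Ideal.absNorm q ^ s = Ideal.absNorm q ^ 1 := by rw [h1, pow_one]
    exact Nat.pow_right_injective h2 this
  rw [hs, h3, pow_one]

end RelNorm

end SecondIneq

end Fermat.Agent.CFT.HNT
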