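/-
TEAM CFT -> S55, block [GLOB-HNT], package S4 (helper3): the second inequality
`[Kˣ : LNT T · U_T] ≤ [M : K]` from the universal norm index inequality `Ray.Stmt_URay`.
-/
import Fermat.Agent.CFT.HNT.Interface
import Fermat.Agent.CFT.HNT.SecondIneqGroup
import Fermat.Agent.CFT.HNT.SecondIneqIdeal
import Fermat.Agent.CFT.Ray.URay
import Fermat.Agent.CFT.Ray.ZetaRayDiff

set_option autoImplicit false
set_option linter.unusedSectionVars false

noncomputable section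

namespace Fermat.Agent.CFT.HNT

namespace SecondIneq

open NumberField IsDedekindDomain

variable {K M : Type} [Field K] [NumberField K] [Field M] [NumberField M] [Algebra K M]

/-- `x` generates the ideal `I` outside `T`. -/
def Rep (T : Set (Pl K)) (I : Ideal (𝓞 K)) (x : Kˣ) : Prop :=
  ∀ v : Pl K, v ∉ T → v.valuation K (x : K) = WithZero.exp (-(cnt v I : ℤ))

theorem Rep.inv_mul_mem {T : Set (Pl K)} {I : Ideal (𝓞 K)} {x y : Kˣ} (hx : Rep T I x)
    (hy : Rep T I y) : x⁻¹ * y ∈ UT K T := by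
  intro v hv
  show v.valuation K ((x⁻¹ * y : Kˣ) : K) = 1
  rw [Units.val_mul, Units.val_inv_eq_inv_val, map_mul, map_inv₀, hx v hv, hy v hv]
  exact inv_mul_cancel₀ WithZero.exp_ne_zero

theorem Rep.mul {T : Set (Pl K)} {I J : Ideal (𝓞 K)} {x y : Kˣ} (hI : I ≠ ⊥) (hJ : J ≠ ⊥)
    (hx : Rep T I x) (hy : Rep T J y) : Rep T (I * J) (x * y) := by
  intro v hv
  rw [Units.val_mul, map_mul, hx v hv, hy v hv, cnt_mul v hI hJ, ← WithZero.exp_add]
  congr 1
  push_cast
  ring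

theorem rep_span (T : Set (Pl K)) {ξ : 𝓞 K} (hξ : ξ ≠ 0) (x : Kˣ)
    (hx : (x : K) = algebraMap (𝓞 K) K ξ) : Rep T (Ideal.span {ξ}) x := by
  intro v _
  rw [hx]
  exact valuation_algebraMap_eq K v hξ

open Classical in
/-- the class map -/
def Phi {T : Set (Pl K)} (hT : GoodT K M T) (W : Subgroup Kˣ) (I : Ideal (𝓞 K)) : Kˣ ⧸ W :=
  if h : I ≠ ⊥ then QuotientGroup.mk (hT.clK I h).choose else 1

theorem Phi_eq {T : Set (Pl K)} (hT : GoodT K M T) (W : Subgroup Kˣ) (hW : UT K T ≤ W)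
    {I : Ideal (𝓞 K)} (hI : I ≠ ⊥) {x : Kˣ} (hx : Rep T I x) :
    Phi hT W I = QuotientGroup.mk x := by
  unfold Phi
  rw [dif_pos hI, QuotientGroup.eq]
  exact hW (Rep.inv_mul_mem (hT.clK I hI).choose_spec hx)

/-- `d`-th powers are norms. -/
theorem pow_finrank_mem_LNT (T : Set (Pl K)) (x : Kˣ) : x ^ Module.finrank K M ∈ LNT K M T := by
  have h : x ^ Module.finrank K M = normU K M (Units.map (algebraMap K M : K →* M) x) := by
    apply Units.ext
    rw [coe_normU, Units.val_pow_eq_pow_val, Units.coe_map]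
    exact (Algebra.norm_algebraMap (x : K)).symm
  rw [h, mem_LNT]
  exact fun v _ => normU_mem_LN K M v _

theorem normU_mem_LNT (T : Set (Pl K)) (x : Mˣ) : normU K M x ∈ LNT K M T := by
  rw [mem_LNT]
  exact fun v _ => normU_mem_LN K M v _

/-- the modulus -/
def modulus (T : Finset (Pl K)) (n : Pl K → ℕ) : Ideal (𝓞 K) := ∏ v ∈ T, v.asIdeal ^ (n v + 1)

theorem modulus_ne_bot (T : Finset (Pl K)) (n : Pl K → ℕ) : modulus T n ≠ ⊥ := by
  unfold modulus
  rw [← Ideal.zero_eq_bot, Finset.prod_ne_zero_iff]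
  exact fun v _ => pow_ne_zero _ v.ne_bot

theorem dvd_modulus {T : Finset (Pl K)} (n : Pl K → ℕ) {v : Pl K} (hv : v ∈ T) :
    v.asIdeal ^ (n v + 1) ∣ modulus T n :=
  Finset.dvd_prod_of_mem (fun v : Pl K => v.asIdeal ^ (n v + 1)) hv

theorem not_dvd_of_isCoprime {T : Finset (Pl K)} (n : Pl K → ℕ) {I : Ideal (𝓞 K)}
    (h : IsCoprime I (modulus T n)) {v : Pl K} (hv : v ∈ T) : ¬ v.asIdeal ∣ I := by
  intro hd
  exact v.prime.not_isUnit
    (h.isUnit_of_dvd' hd ((dvd_pow_self _ (Nat.succ_ne_zero _)).trans (dvd_modulus n hv)))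

theorem isCoprime_modulus {T : Finset (Pl K)} (n : Pl K → ℕ) {I : Ideal (𝓞 K)}
    (h : ∀ v ∈ T, ¬ v.asIdeal ∣ I) : IsCoprime I (modulus T n) := by
  refine IsCoprime.prod_right fun v hv => IsCoprime.pow_right ?_
  rw [Ideal.isCoprime_iff_sup_eq]
  by_contra hne
  have h1 : v.asIdeal = I ⊔ v.asIdeal := v.isMaximal.eq_of_le hne le_sup_right
  apply h v hv
  rw [Ideal.dvd_iff_le, h1]
  exact le_sup_left

theorem near_of_sub_one_mem {T : Finset (Pl K)} (n : Pl K → ℕ) {ξ : 𝓞 K}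
    (h : ξ - 1 ∈ modulus T n) {v : Pl K} (hv : v ∈ T) :
    Near v (n v) (algebraMap (𝓞 K) K ξ) := by
  have h1 : ξ - 1 ∈ v.asIdeal ^ (n v + 1) := Ideal.le_of_dvd (dvd_modulus n hv) h
  have h2 : Near v (n v + 1) (algebraMap (𝓞 K) K ξ) := by
    unfold Near
    rw [← map_one (algebraMap (𝓞 K) K), ← map_sub, HeightOneSpectrum.valuation_of_algebraMap]
    exact (v.intValuation_le_pow_iff_mem _ _).2 h1
  exact h2.mono (Nat.le_succ _)

/-- primes of relative degree one outside `T` are generated outside `T` by a norm. -/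
theorem exists_norm_rep {T : Set (Pl K)} (hT : GoodT K M T) (q : Pl K) (Q : Ideal (𝓞 M))
    [Q.IsPrime] [Q.LiesOver q.asIdeal] (h : Ideal.absNorm Q = Ideal.absNorm q.asIdeal) :
    ∃ ϖ : Mˣ, Rep T q.asIdeal (normU K M ϖ) := by
  have hQ0 : Q ≠ ⊥ := by
    intro h0
    rw [h0, Ideal.absNorm_bot] at h
    exact q.ne_bot (Ideal.absNorm_eq_zero_iff.1 h.symm)
  have hq := q.isPrime
  have hrelQ : Ideal.relNorm (𝓞 K) Q = q.asIdeal := relNorm_eq_of_absNorm_eq q.asIdeal Q q.ne_bot h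
  obtain ⟨ϖ, hϖ⟩ := hT.clM Q hQ0
  refine ⟨ϖ, ?_⟩
  obtain ⟨α, β, hβ, hαβ⟩ := IsFractionRing.div_surjective (A := 𝓞 M) (ϖ : M)
  have hβ0 : β ≠ 0 := nonZeroDivisors.ne_zero hβ
  have hβ0' : algebraMap (𝓞 M) M β ≠ 0 := by
    simpa using (IsFractionRing.injective (𝓞 M) M).ne hβ0
  have hα0 : α ≠ 0 := by
    rintro rfl
    rw [map_zero, zero_div] at hαβ
    exact ϖ.ne_zero hαβ.symm
  have hα : algebraMap (𝓞 M) M α = (ϖ : M) * algebraMap (𝓞 M) M β := by
    rw [← hαβ, div_mul_cancel₀ _ hβ0']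
  have hsα : Ideal.span {α} ≠ ⊥ := by
    rwa [Ne, Ideal.span_singleton_eq_bot]
  have hsβ : Ideal.span {β} ≠ ⊥ := by
    rwa [Ne, Ideal.span_singleton_eq_bot]
  intro v hv
  -- exponents above `v`
  have hcnt : ∀ P : Pl M, P.asIdeal.LiesOver v.asIdeal →
      cnt P (Ideal.span {α}) = cnt P (Q * Ideal.span {β}) := by
    intro P hP
    have hPT : P ∉ upT M T := by
      rintro ⟨w, hw, hPw⟩
      apply hv
      have : v = w := HeightOneSpectrum.ext (hP.over.trans hPw.over.symm)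
      rw [this]; exact hw
    have h1 := congrArg (P.valuation M) hα
    rw [map_mul, hϖ P hPT, valuation_algebraMap_eq M P hα0, valuation_algebraMap_eq M P hβ0,
      ← WithZero.exp_add, WithZero.exp_inj] at h1
    rw [cnt_mul P hQ0 hsβ]
    have h2 : ((cnt P (Ideal.span {α}) : ℕ) : ℤ) = cnt P Q + cnt P (Ideal.span {β}) := by
      linarith
    exact_mod_cast h2
  have hrel := cnt_relNorm_eq v _ _ hsα (mul_ne_zero hQ0 hsβ) hcnt
  rw [map_mul, hrelQ, Ideal.relNorm_singleton, Ideal.relNorm_singleton] at hrel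
  have hNα0 : Algebra.intNorm (𝓞 K) (𝓞 M) α ≠ 0 := by
    rwa [Ne, Algebra.intNorm_eq_zero]
  have hNβ0 : Algebra.intNorm (𝓞 K) (𝓞 M) β ≠ 0 := by
    rwa [Ne, Algebra.intNorm_eq_zero]
  have hsNβ : Ideal.span {Algebra.intNorm (𝓞 K) (𝓞 M) β} ≠ ⊥ := by
    rwa [Ne, Ideal.span_singleton_eq_bot]
  rw [cnt_mul v q.ne_bot hsNβ] at hrel
  have hnorm : Algebra.norm K (algebraMap (𝓞 M) M α)
      = Algebra.norm K (ϖ : M) * Algebra.norm K (algebraMap (𝓞 M) M β) := by
    rw [hα, map_mul]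
  rw [← Algebra.algebraMap_intNorm (A := 𝓞 K) (K := K) (L := M) (B := 𝓞 M),
    ← Algebra.algebraMap_intNorm (A := 𝓞 K) (K := K) (L := M) (B := 𝓞 M)] at hnorm
  have h3 := congrArg (v.valuation K) hnorm
  rw [map_mul, valuation_algebraMap_eq K v hNα0, valuation_algebraMap_eq K v hNβ0, hrel] at h3
  rw [coe_normU]
  have h4 : (WithZero.exp (-((cnt v q.asIdeal + cnt v (Ideal.span
      {Algebra.intNorm (𝓞 K) (𝓞 M) β}) : ℕ) : ℤ)) : WithZero (Multiplicative ℤ))
      = WithZero.exp (-(cnt v q.asIdeal : ℤ)) * WithZero.exp (-(cnt v (Ideal.span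
      {Algebra.intNorm (𝓞 K) (𝓞 M) β}) : ℤ)) := by
    rw [← WithZero.exp_add]
    congr 1
    push_cast
    ring
  rw [h4] at h3
  exact (mul_right_cancel₀ WithZero.exp_ne_zero h3).symm

/-- every class is represented by an integral ideal prime to `T`. -/
theorem exists_rep_primeTo (T : Set (Pl K)) (y : Kˣ) :
    ∃ (I : Ideal (𝓞 K)) (x : Kˣ), I ≠ ⊥ ∧ (∀ v ∈ T, ¬ v.asIdeal ∣ I) ∧ Rep T I x ∧
      y⁻¹ * x ∈ LNT K M T := by
  obtain ⟨a, s, hs, has⟩ := IsFractionRing.div_surjective (A := 𝓞 K) (y : K)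
  have hs0 : s ≠ 0 := nonZeroDivisors.ne_zero hs
  have hs0' : algebraMap (𝓞 K) K s ≠ 0 := by
    simpa using (IsFractionRing.injective (𝓞 K) K).ne hs0
  have ha0 : a ≠ 0 := by
    rintro rfl
    rw [map_zero, zero_div] at has
    exact y.ne_zero has.symm
  set d := Module.finrank K M with hd
  have hdpos : 0 < d := Module.finrank_pos
  have hx0 : a * s ^ (d - 1) ≠ 0 := mul_ne_zero ha0 (pow_ne_zero _ hs0)
  have hx0' : algebraMap (𝓞 K) K (a * s ^ (d - 1)) ≠ 0 := by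
    simpa using (IsFractionRing.injective (𝓞 K) K).ne hx0
  obtain ⟨I, hI0, hIT, hIcnt⟩ := exists_primeTo T (Ideal.span {a * s ^ (d - 1)})
    (by rwa [Ne, Ideal.span_singleton_eq_bot])
  refine ⟨I, Units.mk0 _ hx0', hI0, hIT, ?_, ?_⟩
  · intro v hv
    rw [hIcnt v hv]
    exact rep_span T hx0 _ rfl v hv
  · have h1 : y⁻¹ * Units.mk0 _ hx0' = (Units.mk0 _ hs0') ^ d := by
      apply Units.ext
      rw [Units.val_mul, Units.val_inv_eq_inv_val, Units.val_mk0, Units.val_pow_eq_pow_val,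
        Units.val_mk0, ← has, map_mul, map_pow]
      have : d = (d - 1) + 1 := by omega
      conv_rhs => rw [this, pow_succ]
      have ha0' : algebraMap (𝓞 K) K a ≠ 0 := by
        simpa using (IsFractionRing.injective (𝓞 K) K).ne ha0
      field_simp
    rw [h1]
    exact pow_finrank_mem_LNT T _

/-- the inequality for subgroups of finite index. -/
theorem index_le_of_finiteIndex (h6 : Stmt_Open) {T : Set (Pl K)} (hT : GoodT K M T)
    (hne : T.Nonempty) (W : Subgroup Kˣ) (hW : LNT K M T ⊔ UT K T ≤ W) (hidx : W.index ≠ 0) :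
    W.index ≤ Module.finrank K M := by
  have hW1 : LNT K M T ≤ W := le_sup_left.trans hW
  have hW2 : UT K T ≤ W := le_sup_right.trans hW
  choose n hn using h6 K M
  set Tf : Finset (Pl K) := hT.fin.toFinset with hTf
  have hmem : ∀ v, v ∈ Tf ↔ v ∈ T := fun v => hT.fin.mem_toFinset
  have hfin : Finite (Kˣ ⧸ W) := Nat.finite_of_card_ne_zero hidx
  have hne_bot : ∀ I : Ideal (𝓞 K), IsCoprime I (modulus Tf n) → I ≠ ⊥ := by
    rintro I hI rfl
    obtain ⟨v, hv⟩ := hne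
    exact not_dvd_of_isCoprime n hI ((hmem v).2 hv) (dvd_zero _)
  have hclass : Ray.IsClassMap (modulus Tf n) (Phi hT W) := by
    refine ⟨?_, ?_, ?_⟩
    · intro I J hI hJ
      have hI0 := hne_bot I hI
      have hJ0 := hne_bot J hJ
      rw [Phi_eq hT W hW2 (mul_ne_zero hI0 hJ0)
        (Rep.mul hI0 hJ0 (hT.clK I hI0).choose_spec (hT.clK J hJ0).choose_spec),
        Phi_eq hT W hW2 hI0 (hT.clK I hI0).choose_spec,
        Phi_eq hT W hW2 hJ0 (hT.clK J hJ0).choose_spec]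
      rfl
    · intro ξ hξ hξm
      have hξ' : algebraMap (𝓞 K) K ξ ≠ 0 := by
        simpa using (IsFractionRing.injective (𝓞 K) K).ne hξ
      rw [Phi_eq hT W hW2 (by rwa [Ne, Ideal.span_singleton_eq_bot])
        (rep_span T hξ (Units.mk0 _ hξ') rfl), QuotientGroup.eq_one_iff]
      apply hW1
      rw [mem_LNT]
      intro v hv
      exact hn v _ (near_of_sub_one_mem n hξm ((hmem v).2 hv))
    · intro a
      obtain ⟨y, rfl⟩ := QuotientGroup.mk_surjective a
      obtain ⟨I, x, hI0, hIT, hrep, hyx⟩ := exists_rep_primeTo (M := M) T y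
      refine ⟨I, hI0, isCoprime_modulus n fun v hv => hIT v ((hmem v).1 hv), ?_⟩
      rw [Phi_eq hT W hW2 hI0 hrep, eq_comm, QuotientGroup.eq]
      exact hW1 hyx
  have key := Ray.uRay Ray.zetaRayDiff K M (modulus Tf n) (modulus_ne_bot Tf n) (Kˣ ⧸ W)
    (Phi hT W) hclass ∅ (by
      intro q Q hq hq0 _ hqm hQ hQq hnorm
      let q' : Pl K := ⟨q, hq, hq0⟩
      have : Q.LiesOver q'.asIdeal := hQq
      obtain ⟨ϖ, hϖ⟩ := exists_norm_rep hT q' Q hnorm
      have h1 : Phi hT W q = QuotientGroup.mk (normU K M ϖ) := Phi_eq hT W hW2 hq0 hϖ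
      rw [h1, QuotientGroup.eq_one_iff]
      exact hW1 (normU_mem_LNT T ϖ))
  exact key

end SecondIneq

/-- (S4) -/
theorem secondIneq (h6 : Stmt_Open) (_h7 : Stmt_WeakApprox) : Stmt_SecondIneq := by
  intro K M _ _ _ _ _ T hT
  rcases T.eq_empty_or_nonempty with rfl | hne
  · have h1 : LNT K M (∅ : Set (Pl K)) = ⊤ := by
      simp [LNT]
    rw [h1, top_sup_eq, Subgroup.index_top]
    exact ⟨one_ne_zero, Module.finrank_pos⟩
  · refine SecondIneq.index_le_of_forall _ _ Module.finrank_pos ?_ ?_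
    · intro x
      exact (le_sup_left : LNT K M T ≤ _) (SecondIneq.pow_finrank_mem_LNT T x)
    · intro W hW hidx
      exact SecondIneq.index_le_of_finiteIndex h6 hT hne W hW hidx

end Fermat.Agent.CFT.HNT

end
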