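/-
TEAM CFT -> S55, block [GLOB-HNT], package S2a: Galois action and norm on `T`-units.
Exported lemmas: `ua_valuation_comap` (valuations and ring isomorphisms), `sigmaPl`,
`valuation_sigma` (`P (σ x) = (σ⁻¹ P) x`), `sigmaPl_liesOver`, `valuation_algebraMap_eq_one_iff`,
`exists_pl_above`, `plBelow`.
-/
import Fermat.Agent.CFT.HNT.Interface

set_option autoImplicit false
set_option linter.unusedSectionVars false

noncomputable section

namespace Fermat.Agent.CFT.HNT

open NumberField IsDedekindDomain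

section General

variable {R S : Type*} [CommRing R] [IsDedekindDomain R] [CommRing S] [IsDedekindDomain S]

/-- pull back of a height one prime along a ring isomorphism -/
def plComap (e : R ≃+* S) (v : HeightOneSpectrum S) : HeightOneSpectrum R where
  asIdeal := v.asIdeal.comap e
  isPrime := Ideal.comap_isPrime e _
  ne_bot := by
    intro h
    apply v.ne_bot
    rw [eq_bot_iff]
    intro x hx
    have h1 : e.symm x ∈ v.asIdeal.comap e := by
      rw [Ideal.mem_comap, RingEquiv.apply_symm_apply]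
      exact hx
    rw [h, Ideal.mem_bot] at h1
    rw [Ideal.mem_bot, ← e.apply_symm_apply x, h1, map_zero]

@[simp] theorem plComap_asIdeal (e : R ≃+* S) (v : HeightOneSpectrum S) :
    (plComap e v).asIdeal = v.asIdeal.comap e := rfl

theorem ua_intValuation_comap (e : R ≃+* S) (v : HeightOneSpectrum S) (r : R) :
    (plComap e v).intValuation r = v.intValuation (e r) := by
  rcases eq_or_ne r 0 with rfl | hr
  · simp
  have her : e r ≠ 0 := by simpa using hr
  rw [HeightOneSpectrum.intValuation_eq_exp_neg_multiplicity _ hr,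
    HeightOneSpectrum.intValuation_eq_exp_neg_multiplicity _ her]
  congr 3
  apply multiplicity_eq_of_emultiplicity_eq
  rw [emultiplicity_eq_emultiplicity_iff]
  intro n
  rw [Ideal.dvd_span_singleton, Ideal.dvd_span_singleton]
  have h : (v.asIdeal.comap e) ^ n = (v.asIdeal ^ n).comap e := by
    rw [← Ideal.map_symm, ← Ideal.map_symm, Ideal.map_pow]
  rw [plComap_asIdeal, h, Ideal.mem_comap]

variable {K L : Type*} [Field K] [Field L] [Algebra R K] [IsFractionRing R K] [Algebra S L]
  [IsFractionRing S L]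

/-- valuations and ring isomorphisms -/
theorem ua_valuation_comap (e : R ≃+* S) (f : K ≃+* L)
    (hef : ∀ r, f (algebraMap R K r) = algebraMap S L (e r)) (v : HeightOneSpectrum S) (x : K) :
    (plComap e v).valuation K x = v.valuation L (f x) := by
  obtain ⟨a, b, hb, rfl⟩ := IsFractionRing.div_surjective (A := R) x
  rw [map_div₀, map_div₀, map_div₀, hef, hef, HeightOneSpectrum.valuation_of_algebraMap,
    HeightOneSpectrum.valuation_of_algebraMap, HeightOneSpectrum.valuation_of_algebraMap,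
    HeightOneSpectrum.valuation_of_algebraMap, ua_intValuation_comap, ua_intValuation_comap]

end General

section NF

variable (K M : Type) [Field K] [NumberField K] [Field M] [NumberField M] [Algebra K M]

/-- `σ⁻¹ P` -/
def sigmaPl (σ : M ≃ₐ[K] M) (P : Pl M) : Pl M :=
  plComap (RingOfIntegers.mapRingEquiv (σ : M ≃+* M)) P

/-- `P (σ x) = (σ⁻¹ P) x` -/
theorem valuation_sigma (σ : M ≃ₐ[K] M) (P : Pl M) (x : M) :
    P.valuation M (σ x) = (sigmaPl K M σ P).valuation M x :=
  (ua_valuation_comap _ (σ : M ≃+* M) (fun _ => rfl) P x).symm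

theorem sigmaPl_under (σ : M ≃ₐ[K] M) (P : Pl M) :
    (sigmaPl K M σ P).asIdeal.under (𝓞 K) = P.asIdeal.under (𝓞 K) := by
  ext x
  rw [Ideal.under_def, Ideal.under_def, Ideal.mem_comap, Ideal.mem_comap, sigmaPl, plComap_asIdeal,
    Ideal.mem_comap]
  have : RingOfIntegers.mapRingEquiv (σ : M ≃+* M) (algebraMap (𝓞 K) (𝓞 M) x) =
      algebraMap (𝓞 K) (𝓞 M) x := RingOfIntegers.ext (σ.commutes (x : K))
  rw [this]

theorem sigmaPl_liesOver (σ : M ≃ₐ[K] M) (P : Pl M) (v : Pl K) :
    (sigmaPl K M σ P).asIdeal.LiesOver v.asIdeal ↔ P.asIdeal.LiesOver v.asIdeal := by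
  rw [Ideal.liesOver_iff, Ideal.liesOver_iff, sigmaPl_under]

theorem sigmaPl_mem_upT (σ : M ≃ₐ[K] M) (P : Pl M) (T : Set (Pl K)) :
    sigmaPl K M σ P ∈ upT M T ↔ P ∈ upT M T := by
  simp only [upT, Set.mem_ofPred_eq, sigmaPl_liesOver]

/-- the place of `K` below `P` -/
def plBelow (P : Pl M) : Pl K where
  asIdeal := P.asIdeal.under (𝓞 K)
  isPrime := inferInstance
  ne_bot := Ideal.under_ne_bot (𝓞 K) P.ne_bot

instance plBelow_liesOver (P : Pl M) : P.asIdeal.LiesOver (plBelow K M P).asIdeal := ⟨rfl⟩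

variable {K M} in
theorem eq_plBelow {P : Pl M} {v : Pl K} (h : P.asIdeal.LiesOver v.asIdeal) :
    v = plBelow K M P := HeightOneSpectrum.ext h.over

theorem mem_upT_iff (P : Pl M) (T : Set (Pl K)) : P ∈ upT M T ↔ plBelow K M P ∈ T := by
  constructor
  · rintro ⟨v, hv, h⟩
    rwa [← eq_plBelow h]
  · intro h
    exact ⟨_, h, inferInstance⟩

theorem exists_pl_above (v : Pl K) : ∃ P : Pl M, P.asIdeal.LiesOver v.asIdeal := by
  have := v.isMaximal
  obtain ⟨P, hP, hPv⟩ := Ideal.exists_maximal_ideal_liesOver_of_isIntegral (S := 𝓞 M) v.asIdeal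
  exact ⟨⟨P, hP.isPrime, Ideal.ne_bot_of_liesOver_of_ne_bot v.ne_bot P⟩, hPv⟩

variable {K M} in
theorem valuation_algebraMap_eq_one_iff {P : Pl M} {v : Pl K} (h : P.asIdeal.LiesOver v.asIdeal)
    (x : K) : P.valuation M (algebraMap K M x) = 1 ↔ v.valuation K x = 1 := by
  rw [← HeightOneSpectrum.valuation_liesOver M v P x]
  exact pow_eq_one_iff_of_nonneg zero_le
    (Ideal.IsDedekindDomain.ramificationIdx'_ne_zero_of_liesOver P.asIdeal v.ne_bot)

end NF

theorem unitAction : Stmt_UnitAction := by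
  intro K M _ _ _ _ _ _ T
  have h2 : ∀ (σ : M ≃ₐ[K] M), ∀ x ∈ UT M (upT M T), actU K M σ x ∈ UT M (upT M T) := by
    intro σ x hx P hP
    rw [coe_actU, valuation_sigma]
    exact hx _ fun h => hP ((sigmaPl_mem_upT K M σ P T).1 h)
  have h3 : ∀ x : Kˣ, Units.map (algebraMap K M : K →* M) x ∈ UT M (upT M T) ↔ x ∈ UT K T := by
    intro x
    constructor
    · intro hx v hv
      obtain ⟨P, hP⟩ := exists_pl_above K M v
      refine (valuation_algebraMap_eq_one_iff hP (x : K)).1 (hx P fun h => hv ?_)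
      rw [mem_upT_iff, ← eq_plBelow hP] at h
      exact h
    · intro hx P hP
      refine (valuation_algebraMap_eq_one_iff (plBelow_liesOver K M P) (x : K)).2 (hx _ fun h => hP ?_)
      rwa [mem_upT_iff]
  refine ⟨fun x hx => ?_, h2, h3⟩
  rw [← h3]
  have : Units.map (algebraMap K M : K →* M) (normU K M x) = ∏ σ : M ≃ₐ[K] M, actU K M σ x := by
    ext
    rw [Units.coe_map, coe_normU, Units.coe_prod]
    exact Algebra.norm_eq_prod_automorphisms K (x : M)
  rw [this]
  exact Subgroup.prod_mem _ fun σ _ => h2 σ x hx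

end Fermat.Agent.CFT.HNT

end
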