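/-
TEAM CFT -> S55, block [GLOB-HNT], task HNT-S1 (helper47): the `T`-unit theorem in rank form.
-/
import Fermat.Agent.CFT.HNT.Interface
import Fermat.Agent.CFT.GN.K3c

set_option autoImplicit false

noncomputable section

namespace Fermat.Agent.CFT.HNT

open NumberField IsDedekindDomain FractionalIdeal
open scoped nonZeroDivisors

namespace UnitRank

variable (F : Type) [Field F] [NumberField F] (T : Set (Pl F))

/-- `v.valuation x = 1 ↔ v.valuationOfNeZero x = 1`. -/
theorem valuation_eq_one_iff (v : Pl F) (x : Fˣ) :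
    v.valuation F (x : F) = 1 ↔ v.valuationOfNeZero x = 1 := by
  rw [← v.valuationOfNeZero_eq x, ← WithZero.coe_one, WithZero.coe_inj]

/-- the valuation map `U_T → ℤ^T`. -/
def valMap : Additive (UT F T) →ₗ[ℤ] (T → ℤ) :=
  AddMonoidHom.toIntLinearMap
    { toFun := fun x v =>
        Multiplicative.toAdd (v.1.valuationOfNeZero ((Additive.toMul x : UT F T) : Fˣ))
      map_zero' := by
        funext v
        simp
      map_add' := by
        intro x y
        funext v
        simp }

theorem valMap_apply (x : Additive (UT F T)) (v : T) :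
    valMap F T x v =
      Multiplicative.toAdd (v.1.valuationOfNeZero ((Additive.toMul x : UT F T) : Fˣ)) := rfl

/-- units of `𝓞 F` are `T`-units. -/
def inclHom : (𝓞 F)ˣ →* UT F T :=
  (Units.map (algebraMap (𝓞 F) F : 𝓞 F →* F)).codRestrict (UT F T) fun u v _ => by
    rw [valuation_eq_one_iff]
    exact v.valuation_of_unit_eq u

def incl : Additive (𝓞 F)ˣ →ₗ[ℤ] Additive (UT F T) :=
  AddMonoidHom.toIntLinearMap (MonoidHom.toAdditive (inclHom F T))

theorem incl_injective : Function.Injective (incl F T) := by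
  intro x y hxy
  have h1 : inclHom F T (Additive.toMul x) = inclHom F T (Additive.toMul y) := hxy
  have h2 : algebraMap (𝓞 F) F ((Additive.toMul x : (𝓞 F)ˣ) : 𝓞 F)
      = algebraMap (𝓞 F) F ((Additive.toMul y : (𝓞 F)ˣ) : 𝓞 F) :=
    congrArg (fun z : UT F T => ((z : Fˣ) : F)) h1
  have h3 := FaithfulSMul.algebraMap_injective (𝓞 F) F h2
  exact Units.ext h3

theorem range_incl : LinearMap.range (incl F T) = LinearMap.ker (valMap F T) := by
  ext x
  rw [LinearMap.mem_ker]
  constructor
  · rintro ⟨u, rfl⟩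
    funext v
    rw [valMap_apply]
    have : v.1.valuationOfNeZero (Units.map (algebraMap (𝓞 F) F : 𝓞 F →* F) (Additive.toMul u))
        = 1 := v.1.valuation_of_unit_eq _
    exact congrArg Multiplicative.toAdd this
  · intro hx
    set y : Fˣ := ((Additive.toMul x : UT F T) : Fˣ) with hy
    have hall : ∀ v : Pl F, v.valuation F (y : F) = 1 := by
      intro v
      by_cases hv : v ∈ T
      · rw [valuation_eq_one_iff]
        have := congrFun hx ⟨v, hv⟩
        rw [valMap_apply] at this
        exact this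
      · exact (Additive.toMul x : UT F T).2 v hv
    obtain ⟨a, ha⟩ := HeightOneSpectrum.mem_integers_of_valuation_le_one F (y : F)
      fun v => (hall v).le
    obtain ⟨b, hb⟩ := HeightOneSpectrum.mem_integers_of_valuation_le_one F ((y⁻¹ : Fˣ) : F)
      fun v => by
        rw [Units.val_inv_eq_inv_val, map_inv₀, hall v, inv_one]
    have hab : a * b = 1 := by
      apply FaithfulSMul.algebraMap_injective (𝓞 F) F
      rw [map_mul, ha, hb, map_one, Units.mul_inv]
    refine ⟨Additive.ofMul ⟨a, b, hab, by rw [mul_comm, hab]⟩, ?_⟩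
    have : inclHom F T ⟨a, b, hab, by rw [mul_comm, hab]⟩ = Additive.toMul x := by
      apply Subtype.ext
      apply Units.ext
      exact ha
    exact congrArg Additive.ofMul this

/-- a power of a prime ideal is principal. -/
theorem exists_gen (v : Pl F) :
    ∃ a : 𝓞 F, a ≠ 0 ∧ v.asIdeal ^ (classNumber F) = Ideal.span {a} := by
  have hv0 : v.asIdeal ∈ (Ideal (𝓞 F))⁰ := mem_nonZeroDivisors_of_ne_zero v.ne_bot
  have h1 : ClassGroup.mk0 (⟨v.asIdeal, hv0⟩ ^ classNumber F : (Ideal (𝓞 F))⁰) = 1 := by
    rw [map_pow]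
    exact pow_card_eq_one
  rw [ClassGroup.mk0_eq_one_iff] at h1
  obtain ⟨a, ha⟩ := h1
  refine ⟨a, ?_, ha⟩
  rintro rfl
  have h2 : v.asIdeal ^ classNumber F = ⊥ := by
    have : (v.asIdeal ^ classNumber F : Ideal (𝓞 F)) = Submodule.span (𝓞 F) {0} := ha
    rw [this]; simp
  rw [← Ideal.zero_eq_bot] at h2
  exact v.ne_bot ((pow_eq_zero_iff (classNumber_pos F).ne').1 h2)

/-- the order at `v` of a generator of `v ^ h`. -/
theorem valuationOfNeZero_gen_self (v : Pl F) (x : Fˣ) (a : 𝓞 F)
    (ha : v.asIdeal ^ (classNumber F) = Ideal.span {a}) (hx : (x : F) = algebraMap (𝓞 F) F a) :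
    Multiplicative.toAdd (v.valuationOfNeZero x) = -(classNumber F : ℤ) := by
  have h1 := GN.K3c.count_spanSingleton (R := 𝓞 F) (K := F) v x
  rw [hx, ← coeIdeal_span_singleton, ← ha, coeIdeal_pow, count_pow, count_self] at h1
  omega

/-- the order at `w ≠ v` of a generator of `v ^ h`. -/
theorem valuationOfNeZero_gen_ne (v w : Pl F) (hwv : w ≠ v) (x : Fˣ) (a : 𝓞 F)
    (ha : v.asIdeal ^ (classNumber F) = Ideal.span {a}) (hx : (x : F) = algebraMap (𝓞 F) F a) :
    Multiplicative.toAdd (w.valuationOfNeZero x) = 0 := by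
  have h1 := GN.K3c.count_spanSingleton (R := 𝓞 F) (K := F) w x
  rw [hx, ← coeIdeal_span_singleton, ← ha, coeIdeal_pow, count_pow,
    count_maximal_coprime F w (fun h => hwv h.symm)] at h1
  omega

end UnitRank

open UnitRank in
theorem unitRank : Stmt_UnitRank := by
  classical
  intro F _ _ T hT
  have := hT.fintype
  have hh : (classNumber F : ℤ) ≠ 0 := by
    have := classNumber_pos F
    omega
  -- generators
  have hgen : ∀ v : T, ∃ X : Additive (UT F T),
      valMap F T X = -(classNumber F : ℤ) • Pi.single v (1 : ℤ) := by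
    intro v
    obtain ⟨a, ha0, ha⟩ := exists_gen F v.1
    have ha0' : algebraMap (𝓞 F) F a ≠ 0 := by
      rwa [Ne, FaithfulSMul.algebraMap_eq_zero_iff]
    set x : Fˣ := Units.mk0 _ ha0' with hx
    have hxT : x ∈ UT F T := by
      intro w hw
      rw [valuation_eq_one_iff]
      exact valuationOfNeZero_gen_ne F v.1 w (fun h => hw (h ▸ v.2)) x a ha rfl
    refine ⟨Additive.ofMul ⟨x, hxT⟩, ?_⟩
    funext w
    rw [valMap_apply]
    simp only [toMul_ofMul]
    by_cases hwv : w = v
    · subst hwv
      rw [valuationOfNeZero_gen_self F w.1 x a ha rfl]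
      simp
    · have hne : (w : Pl F) ≠ v := fun h => hwv (Subtype.ext h)
      rw [valuationOfNeZero_gen_ne F v.1 w.1 hne x a ha rfl]
      simp [hwv]
  choose X hX using hgen
  have htors : ∀ y : T → ℤ, ∃ x, valMap F T x = (classNumber F : ℤ) • y := by
    intro y
    refine ⟨∑ v, (-(y v)) • X v, ?_⟩
    rw [map_sum]
    simp only [map_smul, hX]
    funext w
    simp only [Finset.sum_apply, Pi.smul_apply, smul_eq_mul]
    rw [Finset.sum_eq_single w]
    · simp
      ring
    · intro b _ hb
      simp [hb.symm]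
    · intro h
      exact absurd (Finset.mem_univ w) h
  -- finiteness
  have hfin : Module.Finite ℤ (Additive (UT F T)) := by
    constructor
    refine Submodule.fg_of_fg_map_of_fg_inf_ker (valMap F T) ?_ ?_
    · exact IsNoetherian.noetherian _
    · rw [top_inf_eq, ← range_incl, LinearMap.range_eq_map]
      exact Submodule.FG.map _ Module.Finite.fg_top
  refine ⟨hfin, ?_⟩
  have e1 : Module.finrank ℤ (LinearMap.range (valMap F T))
      + Module.finrank ℤ (LinearMap.ker (valMap F T)) = Module.finrank ℤ (Additive (UT F T)) := by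
    rw [← (valMap F T).quotKerEquivRange.finrank_eq]
    exact Submodule.finrank_quotient_add_finrank _
  have e2 := Submodule.finrank_quotient_add_finrank (LinearMap.range (valMap F T))
  have e3 : Module.finrank ℤ ((T → ℤ) ⧸ LinearMap.range (valMap F T)) = 0 := by
    rw [Module.finrank_eq_zero_iff]
    intro y
    obtain ⟨y, rfl⟩ := Submodule.Quotient.mk_surjective _ y
    obtain ⟨x, hx⟩ := htors y
    refine ⟨(classNumber F : ℤ), hh, ?_⟩
    rw [← Submodule.Quotient.mk_smul, Submodule.Quotient.mk_eq_zero]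
    exact ⟨x, hx⟩
  have e4 : Module.finrank ℤ (LinearMap.ker (valMap F T)) = Units.rank F := by
    rw [← range_incl, LinearMap.finrank_range_of_inj (incl_injective F T), Units.finrank_eq]
  have e5 : Module.finrank ℤ (T → ℤ) = T.ncard := by
    rw [Module.finrank_fintype_fun_eq_card, ← Nat.card_eq_fintype_card, Nat.card_coe_set_eq]
  omega

end Fermat.Agent.CFT.HNT

end
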