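/-
TEAM CFT -> S55, block [GLOB-HNT] (architect helper73).  File 4: all packages put together.

`hntLI : Stmt_HNT` (the Hasse norm theorem with the local input `Stmt_LI K M` as a hypothesis) is
unconditional; `hntU` removes the local input using `Local.Stmt_LIall` (block [LOC-LI], helper61).
-/
import Fermat.Agent.CFT.HNT.Assembly
import Fermat.Agent.CFT.HNT.UnitRank
import Fermat.Agent.CFT.HNT.UnitAction
import Fermat.Agent.CFT.HNT.HerbrandT
import Fermat.Agent.CFT.HNT.H1T
import Fermat.Agent.CFT.HNT.Open
import Fermat.Agent.CFT.HNT.WeakApprox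
import Fermat.Agent.CFT.HNT.LocalCount
import Fermat.Agent.CFT.HNT.SecondIneq
import Fermat.Agent.CFT.HNT.ExistsGoodT
import Fermat.Agent.CFT.Local.LIFinal

set_option autoImplicit false

namespace Fermat.Agent.CFT.HNT

open NumberField IsDedekindDomain

/-- The Hasse norm theorem, with `Stmt_LI K M` as its only hypothesis. -/
theorem hntLI : Stmt_HNT :=
  hnt unitAction (herbrandT unitRank unitAction) (h1T unitAction)
    (secondIneq isOpen weakApprox) (localCount isOpen weakApprox) existsGoodT supp

/-- **The Hasse norm theorem**, place by place form, no local hypothesis. -/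
def Stmt_HNTu : Prop :=
  ∀ (p : ℕ) (K M : Type) [Field K] [NumberField K] [Field M] [NumberField M] [Algebra K M]
    [IsGalois K M], p.Prime → Module.finrank K M = p → IsTotallyComplex K →
    ∀ b : K, b ≠ 0 → (∀ v : Pl K, IsApproxNorm K M v b) → ∃ β : M, Algebra.norm K β = b

theorem hntU (hLI : Local.Stmt_LIall) : Stmt_HNTu := by
  intro p K M _ _ _ _ _ _ hp hdeg hTC b hb hloc
  have hcard : Nat.card (M ≃ₐ[K] M) = p := by
    rw [IsGalois.card_aut_eq_finrank, hdeg]
  have : Fact p.Prime := ⟨hp⟩
  have hcyc : IsCyclic (M ≃ₐ[K] M) := isCyclic_of_prime_card hcard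
  exact hntLI p K M hp hdeg hTC (hLI K M hcyc (by rw [hdeg]; exact hp.one_lt)) b hb hloc

/-- the Hasse norm theorem, place by place form, UNCONDITIONAL. -/
theorem all_hntU : Stmt_HNTu := hntU Local.all_LIall

end Fermat.Agent.CFT.HNT
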